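import Mathlib
import Fermat.Agent.S24.Hurwitz.Interface

/-!
# S20 / reduced bases: the two lattices of a function field over `K(x)`

`dw_B K x` is the ring of functions regular at all places where `x` is regular, `dw_Binf K x m`
is the `K`-space of functions `f` with `f * x ^ m` regular at all poles of `x`, and `dw_deg K x f`
is the degree of `f` at infinity.
-/

set_option autoImplicit false

namespace Fermat.Agent.S20

open AlgebraicCurve IntermediateField Polynomial Fermat.Agent.S24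

universe u v
variable {K : Type u} {F : Type v} [Field K] [Field F] [Algebra K F]

/-- Functions regular at all finite places (with respect to `x`). -/
def dw_B (K : Type u) {F : Type v} [Field K] [Field F] [Algebra K F] (x : F) : Subalgebra K F where
  carrier := {f | ∀ v : Place K F, x ∈ v.toValuationSubring → f ∈ v.toValuationSubring}
  mul_mem' := fun ha hb v hv => mul_mem (ha v hv) (hb v hv)
  add_mem' := fun ha hb v hv => add_mem (ha v hv) (hb v hv)
  algebraMap_mem' := fun c v _ => v.algebraMap_mem' c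

theorem dw_mem_B {x f : F} :
    f ∈ dw_B K x ↔
      ∀ v : Place K F, x ∈ v.toValuationSubring → f ∈ v.toValuationSubring := Iff.rfl

/-- `t ^ m • B_∞`: functions `f` with `ord_v f ≥ m e_v` at all places over `x = ∞`. -/
def dw_Binf (K : Type u) {F : Type v} [Field K] [Field F] [Algebra K F] (x : F) (m : ℤ) :
    Submodule K F where
  carrier := {f | ∀ v : Place K F, x ∉ v.toValuationSubring → f * x ^ m ∈ v.toValuationSubring}
  add_mem' := fun ha hb v hv => by
    rw [add_mul]; exact add_mem (ha v hv) (hb v hv)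
  zero_mem' := fun v _ => by simp [v.toValuationSubring.zero_mem]
  smul_mem' := fun c f hf v hv => by
    rw [Algebra.smul_def, mul_assoc]
    exact mul_mem (v.algebraMap_mem' c) (hf v hv)

theorem dw_mem_Binf {x f : F} {m : ℤ} :
    f ∈ dw_Binf K x m ↔
      ∀ v : Place K F, x ∉ v.toValuationSubring → f * x ^ m ∈ v.toValuationSubring := Iff.rfl

theorem dw_inv_mem_of_not_mem (v : Place K F) {x : F} (hx : x ∉ v.toValuationSubring) :
    x⁻¹ ∈ v.toValuationSubring :=
  (v.toValuationSubring.mem_or_inv_mem x).resolve_left hx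

/-- The filtration is decreasing. -/
theorem dw_Binf_anti (x : F) {m m' : ℤ} (h : m ≤ m') :
    dw_Binf K x m' ≤ dw_Binf K x m := by
  intro f hf v hv
  have hx0 : x ≠ 0 := by
    rintro rfl; exact hv v.toValuationSubring.zero_mem
  obtain ⟨k, rfl⟩ : ∃ k : ℕ, m' = m + k := ⟨(m' - m).toNat, by omega⟩
  have h1 : f * x ^ m = f * x ^ (m + (k : ℤ)) * (x⁻¹) ^ k := by
    rw [zpow_add₀ hx0, zpow_natCast, inv_pow]
    field_simp
  rw [h1]
  exact mul_mem (hf v hv) (pow_mem (dw_inv_mem_of_not_mem v hv) k)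

/-- Multiplication by a power of `x` shifts the filtration. -/
theorem dw_mul_zpow_mem_Binf {x f : F} (hx0 : x ≠ 0) {m : ℤ} (j : ℤ) :
    f * x ^ j ∈ dw_Binf K x m ↔ f ∈ dw_Binf K x (m + j) := by
  simp only [dw_mem_Binf]
  constructor <;> intro h v hv
  · have := h v hv
    rwa [mul_assoc, ← zpow_add₀ hx0, add_comm] at this
  · have := h v hv
    rwa [mul_assoc, ← zpow_add₀ hx0, add_comm]

/-- `B_∞`-multiplicativity of the filtration. -/
theorem dw_mul_mem_Binf {x f g : F} (hx0 : x ≠ 0) {m m' : ℤ} (hf : f ∈ dw_Binf K x m)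
    (hg : g ∈ dw_Binf K x m') : f * g ∈ dw_Binf K x (m + m') := by
  intro v hv
  have : f * g * x ^ (m + m') = (f * x ^ m) * (g * x ^ m') := by
    rw [zpow_add₀ hx0]; ring
  rw [this]
  exact mul_mem (hf v hv) (hg v hv)

theorem dw_not_mem_iff_ord_neg (v : Place K F) {x : F} (hx0 : x ≠ 0) :
    x ∉ v.toValuationSubring ↔ v.ord x < 0 := by
  rw [hw_mem_iff_ord_nonneg v hx0, not_le]

theorem dw_mem_Binf_iff_ord {x f : F} (hx0 : x ≠ 0) (hf : f ≠ 0) {m : ℤ} :
    f ∈ dw_Binf K x m ↔ ∀ v : Place K F, v.ord x < 0 → m * (-v.ord x) ≤ v.ord f := by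
  rw [dw_mem_Binf]
  refine forall_congr' fun v => ?_
  rw [dw_not_mem_iff_ord_neg v hx0,
    hw_mem_iff_ord_nonneg v (mul_ne_zero hf (zpow_ne_zero _ hx0)),
    v.ord_mul hf (zpow_ne_zero _ hx0), v.ord_zpow]
  constructor <;> intro h hv <;> have := h hv <;> linarith

theorem dw_mem_B_iff_ord {x f : F} (hx0 : x ≠ 0) (hf : f ≠ 0) :
    f ∈ dw_B K x ↔ ∀ v : Place K F, 0 ≤ v.ord x → 0 ≤ v.ord f := by
  rw [dw_mem_B]
  refine forall_congr' fun v => ?_
  rw [hw_mem_iff_ord_nonneg v hx0, hw_mem_iff_ord_nonneg v hf]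

/-- `c` is a unit times `x ^ d` at every place over `x = ∞`. -/
def dw_UnitInf (K : Type u) {F : Type v} [Field K] [Field F] [Algebra K F] (x c : F) (d : ℤ) :
    Prop :=
  ∀ v : Place K F, x ∉ v.toValuationSubring →
    v.toValuationSubring.valuation (c * x ^ (-d)) = 1

theorem dw_valuation_inv_lt_one (v : Place K F) {x : F} (hx : x ∉ v.toValuationSubring) :
    v.toValuationSubring.valuation x⁻¹ < 1 := by
  have h1 : ¬ v.toValuationSubring.valuation x ≤ 1 := fun h =>
    hx ((v.toValuationSubring.valuation_le_one_iff x).mp h)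
  rw [not_le] at h1
  rw [map_inv₀]
  exact inv_lt_one_of_one_lt₀ h1

theorem dw_valuation_algebraMap (v : Place K F) {a : K} (ha : a ≠ 0) :
    v.toValuationSubring.valuation (algebraMap K F a) = 1 := by
  have h1 : v.toValuationSubring.valuation (algebraMap K F a) ≤ 1 :=
    (v.toValuationSubring.valuation_le_one_iff _).mpr (v.algebraMap_mem' a)
  have h2 : v.toValuationSubring.valuation (algebraMap K F a⁻¹) ≤ 1 :=
    (v.toValuationSubring.valuation_le_one_iff _).mpr (v.algebraMap_mem' a⁻¹)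
  rw [map_inv₀, map_inv₀] at h2
  have h0 : v.toValuationSubring.valuation (algebraMap K F a) ≠ 0 := by
    rw [Valuation.ne_zero_iff]
    exact (map_ne_zero_iff _ (algebraMap K F).injective).mpr ha
  have h3 : 1 ≤ v.toValuationSubring.valuation (algebraMap K F a) := by
    rwa [inv_le_one₀ (zero_lt_iff.mpr h0)] at h2
  exact le_antisymm h1 h3

theorem dw_unitInf_aeval {x : F} {p : K[X]} (hp : p ≠ 0) :
    dw_UnitInf K x (aeval x p) p.natDegree := by
  intro v hv
  have hx0 : x ≠ 0 := by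
    rintro rfl; exact hv v.toValuationSubring.zero_mem
  have ht := dw_valuation_inv_lt_one v hv
  set d := p.natDegree with hd
  have h1 : aeval x p * x ^ (-(d : ℤ)) =
      algebraMap K F p.leadingCoeff +
        ∑ i ∈ Finset.range d, algebraMap K F (p.coeff i) * x⁻¹ ^ (d - i) := by
    rw [aeval_eq_sum_range, Finset.sum_range_succ, add_mul, add_comm, Finset.sum_mul]
    congr 1
    · rw [Algebra.smul_def, mul_assoc, zpow_neg, zpow_natCast, mul_inv_cancel₀ (pow_ne_zero _ hx0),
        mul_one]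
      rfl
    · refine Finset.sum_congr rfl fun i hi => ?_
      rw [Finset.mem_range] at hi
      rw [Algebra.smul_def, mul_assoc]
      congr 1
      rw [zpow_neg, zpow_natCast, inv_pow]
      have : x ^ d = x ^ (d - i) * x ^ i := by
        rw [← pow_add]; congr 1; omega
      rw [this]
      field_simp
  rw [h1]
  have h2 : v.toValuationSubring.valuation (algebraMap K F p.leadingCoeff) = 1 :=
    dw_valuation_algebraMap v (leadingCoeff_ne_zero.mpr hp)
  have h3 : v.toValuationSubring.valuation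
      (∑ i ∈ Finset.range d, algebraMap K F (p.coeff i) * x⁻¹ ^ (d - i)) < 1 := by
    refine Valuation.map_sum_lt _ one_ne_zero fun i hi => ?_
    rw [Finset.mem_range] at hi
    rw [map_mul, map_pow]
    have h4 : v.toValuationSubring.valuation (algebraMap K F (p.coeff i)) ≤ 1 :=
      (v.toValuationSubring.valuation_le_one_iff _).mpr (v.algebraMap_mem' _)
    have h5 : v.toValuationSubring.valuation x⁻¹ ^ (d - i) < 1 :=
      pow_lt_one₀ zero_le ht (by omega)
    calc _ ≤ 1 * v.toValuationSubring.valuation x⁻¹ ^ (d - i) := by gcongr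
      _ < 1 := by rwa [one_mul]
  rw [Valuation.map_add_eq_of_lt_left _ (by rw [h2]; exact h3), h2]

theorem dw_unitInf_mul {x c c' : F} {d d' : ℤ} (h : dw_UnitInf K x c d)
    (h' : dw_UnitInf K x c' d') : dw_UnitInf K x (c * c') (d + d') := by
  intro v hv
  have hx0 : x ≠ 0 := by
    rintro rfl; exact hv v.toValuationSubring.zero_mem
  have : c * c' * x ^ (-(d + d')) = (c * x ^ (-d)) * (c' * x ^ (-d')) := by
    rw [neg_add, zpow_add₀ hx0]; ring
  rw [this, map_mul, h v hv, h' v hv, one_mul]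

theorem dw_unitInf_inv {x c : F} {d : ℤ} (h : dw_UnitInf K x c d) :
    dw_UnitInf K x c⁻¹ (-d) := by
  intro v hv
  have : c⁻¹ * x ^ (-(-d)) = (c * x ^ (-d))⁻¹ := by
    rw [mul_inv, ← zpow_neg]
  rw [this, map_inv₀, h v hv, inv_one]

theorem dw_unitInf_div {x c c' : F} {d d' : ℤ} (h : dw_UnitInf K x c d)
    (h' : dw_UnitInf K x c' d') : dw_UnitInf K x (c / c') (d - d') := by
  rw [div_eq_mul_inv, sub_eq_add_neg]
  exact dw_unitInf_mul h (dw_unitInf_inv h')

theorem dw_unitInf_self {x : F} : dw_UnitInf K x x 1 := by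
  intro v hv
  have hx0 : x ≠ 0 := by
    rintro rfl; exact hv v.toValuationSubring.zero_mem
  rw [zpow_neg, zpow_one, mul_inv_cancel₀ hx0, map_one]

theorem dw_unitInf_zpow {x : F} (n : ℤ) : dw_UnitInf K x (x ^ n) n := by
  intro v hv
  have hx0 : x ≠ 0 := by
    rintro rfl; exact hv v.toValuationSubring.zero_mem
  rw [← zpow_add₀ hx0, add_neg_cancel, zpow_zero, map_one]

theorem dw_unitInf_algebraMap {x : F} {a : K} (ha : a ≠ 0) :
    dw_UnitInf K x (algebraMap K F a) 0 := by
  intro v _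
  rw [neg_zero, zpow_zero, mul_one]
  exact dw_valuation_algebraMap v ha

/-- Every nonzero element of `K(x)` is a unit times a power of `x` at infinity. -/
theorem dw_exists_unitInf {x c : F} (hc : c ∈ K⟮x⟯) (hc0 : c ≠ 0) :
    ∃ d : ℤ, dw_UnitInf K x c d := by
  obtain ⟨r, s, rfl⟩ := (mem_adjoin_simple_iff K c).mp hc
  have hr : r ≠ 0 := by
    rintro rfl; simp at hc0
  have hs : s ≠ 0 := by
    rintro rfl; simp at hc0
  exact ⟨_, dw_unitInf_div (dw_unitInf_aeval hr) (dw_unitInf_aeval hs)⟩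

theorem dw_mul_mem_Binf_iff {x c f : F} {d m : ℤ} (h : dw_UnitInf K x c d) :
    c * f ∈ dw_Binf K x m ↔ f ∈ dw_Binf K x (m + d) := by
  simp only [dw_mem_Binf]
  refine forall_congr' fun v => forall_congr' fun hv => ?_
  have hx0 : x ≠ 0 := by
    rintro rfl; exact hv v.toValuationSubring.zero_mem
  have h1 : c * f * x ^ m = (c * x ^ (-d)) * (f * x ^ (m + d)) := by
    rw [zpow_add₀ hx0, zpow_neg]
    field_simp
  rw [← v.toValuationSubring.valuation_le_one_iff, ← v.toValuationSubring.valuation_le_one_iff,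
    h1, map_mul, h v hv, one_mul]

theorem dw_unitInf_mem_Binf {x c : F} {d : ℤ} (h : dw_UnitInf K x c d) :
    c ∈ dw_Binf K x (-d) := by
  have := (dw_mul_mem_Binf_iff (f := 1) (m := -d) h).mpr (by
    rw [neg_add_cancel]
    intro v _
    simp [v.toValuationSubring.one_mem])
  rwa [mul_one] at this


/-- The degree at infinity of `f` with respect to `x`: the least `d` with `f ∈ x ^ d • B_∞`. -/
noncomputable def dw_deg (K : Type u) {F : Type v} [Field K] [Field F] [Algebra K F]
    (x f : F) : ℤ := sInf {d : ℤ | f ∈ dw_Binf K x (-d)}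

section
variable [IsAlgClosed K] [CharZero K] {x : F} (hx : Transcendental K x) [FiniteDimensional K⟮x⟯ F]

omit [IsAlgClosed K] [CharZero K] [FiniteDimensional K⟮x⟯ F] in
include hx in
theorem dw_x_ne_zero : x ≠ 0 := by
  rintro rfl
  exact hx (isAlgebraic_zero)

include hx in
/-- There is a place at infinity. -/
theorem dw_exists_place_infty : ∃ v : Place K F, v.ord x < 0 := by
  obtain ⟨s, hs, hsum⟩ := hw_sum_ord_poles hx
  by_contra hcon
  push Not at hcon
  have : s = ∅ := by
    ext v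
    simp only [hs, Finset.notMem_empty, iff_false, not_lt]
    exact hcon v
  rw [this, Finset.sum_empty] at hsum
  have hpos : 0 < Module.finrank K⟮x⟯ F := Module.finrank_pos
  omega

include hx in
theorem dw_degSet_nonempty (f : F) : {d : ℤ | f ∈ dw_Binf K x (-d)}.Nonempty := by
  classical
  have hx0 := dw_x_ne_zero hx
  rcases eq_or_ne f 0 with rfl | hf
  · exact ⟨0, (dw_Binf K x _).zero_mem⟩
  refine ⟨∑ v ∈ (hw_finite_poles hx).toFinset, |v.ord f|, ?_⟩
  rw [Set.mem_ofPred_eq, dw_mem_Binf_iff_ord hx0 hf]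
  intro v hv
  have hmem : v ∈ (hw_finite_poles hx).toFinset := by simpa using hv
  have h1 : |v.ord f| ≤ ∑ w ∈ (hw_finite_poles hx).toFinset, |w.ord f| :=
    Finset.single_le_sum (f := fun w => |w.ord f|) (fun w _ => abs_nonneg _) hmem
  have h2 : 0 ≤ ∑ w ∈ (hw_finite_poles hx).toFinset, |w.ord f| :=
    Finset.sum_nonneg fun w _ => abs_nonneg _
  have h3 := neg_abs_le (v.ord f)
  nlinarith

include hx in
theorem dw_degSet_bddBelow {f : F} (hf : f ≠ 0) : BddBelow {d : ℤ | f ∈ dw_Binf K x (-d)} := by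
  have hx0 := dw_x_ne_zero hx
  obtain ⟨v, hv⟩ := dw_exists_place_infty hx
  refine ⟨-|v.ord f|, fun d hd => ?_⟩
  rw [Set.mem_ofPred_eq, dw_mem_Binf_iff_ord hx0 hf] at hd
  have h1 := hd v hv
  have h3 := le_abs_self (v.ord f)
  by_contra hlt
  push Not at hlt
  nlinarith [abs_nonneg (v.ord f)]

include hx in
theorem dw_deg_le_iff {f : F} (hf : f ≠ 0) {d : ℤ} :
    dw_deg K x f ≤ d ↔ f ∈ dw_Binf K x (-d) := by
  constructor
  · intro h
    have hmem : dw_deg K x f ∈ {d : ℤ | f ∈ dw_Binf K x (-d)} :=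
      Int.csInf_mem (dw_degSet_nonempty hx f) (dw_degSet_bddBelow hx hf)
    exact dw_Binf_anti x (by omega) hmem
  · intro h
    exact csInf_le (dw_degSet_bddBelow hx hf) h

include hx in
theorem dw_mem_Binf_deg {f : F} (hf : f ≠ 0) : f ∈ dw_Binf K x (-(dw_deg K x f)) :=
  (dw_deg_le_iff hx hf).mp le_rfl

include hx in
theorem dw_lt_deg_iff {f : F} (hf : f ≠ 0) {d : ℤ} :
    d < dw_deg K x f ↔ f ∉ dw_Binf K x (-d) := by
  rw [← not_le, dw_deg_le_iff hx hf]

end

theorem dw_valuation_lt_one_iff (v : Place K F) {f : F} (hf : f ≠ 0) :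
    v.toValuationSubring.valuation f < 1 ↔ 0 < v.ord f := by
  rw [hw_ord_pos_iff v hf, ← v.toValuationSubring.valuation_le_one_iff, map_inv₀, not_le]
  have h0 : v.toValuationSubring.valuation f ≠ 0 := (Valuation.ne_zero_iff _).mpr hf
  rw [one_lt_inv₀ (zero_lt_iff.mpr h0)]

theorem dw_valuation_eq_one_iff (v : Place K F) {f : F} (hf : f ≠ 0) :
    v.toValuationSubring.valuation f = 1 ↔ v.ord f = 0 := by
  have h1 := dw_valuation_lt_one_iff v hf
  have h2 : v.toValuationSubring.valuation f ≤ 1 ↔ 0 ≤ v.ord f := by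
    rw [v.toValuationSubring.valuation_le_one_iff, hw_mem_iff_ord_nonneg v hf]
  constructor
  · intro h
    have h3 : 0 ≤ v.ord f := h2.mp h.le
    have h4 : ¬ 0 < v.ord f := fun h5 => (h1.mpr h5).ne h
    omega
  · intro h
    have h3 : v.toValuationSubring.valuation f ≤ 1 := h2.mpr h.ge
    have h4 : ¬ v.toValuationSubring.valuation f < 1 := fun h5 => by
      have := h1.mp h5; omega
    exact le_antisymm h3 (not_lt.mp h4)

theorem dw_one_mem_Binf_iff {x : F} (hx0 : x ≠ 0) (hex : ∃ v : Place K F, v.ord x < 0) {m : ℤ} :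
    (1 : F) ∈ dw_Binf K x m ↔ m ≤ 0 := by
  rw [dw_mem_Binf_iff_ord hx0 one_ne_zero]
  constructor
  · intro h
    obtain ⟨v, hv⟩ := hex
    have := h v hv
    rw [v.ord_one] at this
    by_contra hm
    push Not at hm
    nlinarith
  · intro hm v hv
    rw [v.ord_one]
    nlinarith

section
variable [IsAlgClosed K] [CharZero K] {x : F} (hx : Transcendental K x) [FiniteDimensional K⟮x⟯ F]

include hx in
theorem dw_unitInf_ne_zero {c : F} {d : ℤ} (h : dw_UnitInf K x c d) : c ≠ 0 := by
  rintro rfl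
  obtain ⟨v, hv⟩ := dw_exists_place_infty hx
  have := h v ((dw_not_mem_iff_ord_neg v (dw_x_ne_zero hx)).mpr hv)
  simp at this

include hx in
theorem dw_deg_eq_of_unitInf {c : F} {d : ℤ} (h : dw_UnitInf K x c d) : dw_deg K x c = d := by
  have hc0 := dw_unitInf_ne_zero hx h
  apply le_antisymm
  · exact (dw_deg_le_iff hx hc0).mpr (dw_unitInf_mem_Binf h)
  · by_contra hlt
    push Not at hlt
    have h1 : dw_deg K x c ≤ d - 1 := by omega
    rw [dw_deg_le_iff hx hc0] at h1
    have h2 := (dw_mul_mem_Binf_iff (f := 1) h).mp (by rwa [mul_one])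
    rw [dw_one_mem_Binf_iff (dw_x_ne_zero hx) (dw_exists_place_infty hx)] at h2
    omega

include hx in
theorem dw_deg_mul_of_unitInf {c f : F} {d : ℤ} (h : dw_UnitInf K x c d) (hf : f ≠ 0) :
    dw_deg K x (c * f) = d + dw_deg K x f := by
  have hc0 := dw_unitInf_ne_zero hx h
  have hcf : c * f ≠ 0 := mul_ne_zero hc0 hf
  have key : ∀ e : ℤ, dw_deg K x (c * f) ≤ e ↔ dw_deg K x f ≤ e - d := by
    intro e
    rw [dw_deg_le_iff hx hcf, dw_deg_le_iff hx hf, dw_mul_mem_Binf_iff h]
    congr! 2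
    ring
  apply le_antisymm
  · rw [key]; omega
  · have := (key _).mp le_rfl
    omega

include hx in
theorem dw_deg_add_le {f g : F} (hf : f ≠ 0) (hg : g ≠ 0) (hfg : f + g ≠ 0) :
    dw_deg K x (f + g) ≤ max (dw_deg K x f) (dw_deg K x g) := by
  rw [dw_deg_le_iff hx hfg]
  refine (dw_Binf K x _).add_mem ?_ ?_
  · exact dw_Binf_anti x (by simp) (dw_mem_Binf_deg hx hf)
  · exact dw_Binf_anti x (by simp) (dw_mem_Binf_deg hx hg)

omit hx in
/-- A function without poles is constant. -/
theorem dw_exists_const_of_forall_mem (x : F) [FiniteDimensional K⟮x⟯ F] {f : F}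
    (h : ∀ v : Place K F, f ∈ v.toValuationSubring) :
    ∃ c : K, f = algebraMap K F c := by
  rcases hw_const_or_transcendental (K := K) f with hc | hft
  · exact hc
  · exfalso
    have hfd := hw_finiteDimensional_adjoin x hft
    obtain ⟨v, hv⟩ := dw_exists_place_infty hft
    have hf0 : f ≠ 0 := dw_x_ne_zero hft
    have := (hw_mem_iff_ord_nonneg v hf0).mp (h v)
    omega

include hx in
/-- `B ∩ x⁻¹ B_∞ = 0`. -/
theorem dw_eq_zero_of_mem_B_of_mem_Binf_one {f : F} (hB : f ∈ dw_B K x)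
    (hinf : f ∈ dw_Binf K x 1) : f = 0 := by
  by_contra hf
  have hx0 := dw_x_ne_zero hx
  have hall : ∀ v : Place K F, f ∈ v.toValuationSubring := by
    intro v
    by_cases hv : x ∈ v.toValuationSubring
    · exact hB v hv
    · have h1 := hinf v hv
      rw [zpow_one] at h1
      have : f = f * x * x⁻¹ := by field_simp
      rw [this]
      exact mul_mem h1 (dw_inv_mem_of_not_mem v hv)
  obtain ⟨c, rfl⟩ := dw_exists_const_of_forall_mem x hall
  have hc : c ≠ 0 := by
    rintro rfl; simp at hf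
  have h1 : dw_UnitInf K x (algebraMap K F c) 0 := dw_unitInf_algebraMap hc
  have h2 := (dw_mul_mem_Binf_iff (f := 1) h1).mp (by rwa [mul_one])
  rw [dw_one_mem_Binf_iff hx0 (dw_exists_place_infty hx)] at h2
  omega

include hx in
theorem dw_deg_nonneg_of_mem_B {f : F} (hB : f ∈ dw_B K x) (hf : f ≠ 0) : 0 ≤ dw_deg K x f := by
  by_contra hlt
  push Not at hlt
  have h1 : dw_deg K x f ≤ -1 := by omega
  rw [dw_deg_le_iff hx hf] at h1
  exact hf (dw_eq_zero_of_mem_B_of_mem_Binf_one hx hB (by simpa using h1))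

include hx in
/-- Leading coefficient at infinity of an element of `K(x)`. -/
theorem dw_exists_leading {c : F} (hc : c ∈ K⟮x⟯) {d : ℤ} (hd : dw_UnitInf K x c d) :
    ∃ a : K, a ≠ 0 ∧ c - algebraMap K F a * x ^ d ∈ dw_Binf K x (-(d - 1)) := by
  have hx0 := dw_x_ne_zero hx
  have hc0 := dw_unitInf_ne_zero hx hd
  obtain ⟨v, hv⟩ := dw_exists_place_infty hx
  have hv' : x ∉ v.toValuationSubring := (dw_not_mem_iff_ord_neg v hx0).mpr hv
  have hu1 := hd v hv'
  have hu0 : c * x ^ (-d) ≠ 0 := mul_ne_zero hc0 (zpow_ne_zero _ hx0)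
  have humem : c * x ^ (-d) ∈ v.toValuationSubring :=
    (v.toValuationSubring.valuation_le_one_iff _).mp hu1.le
  have hsub : ∀ a : K, c - algebraMap K F a * x ^ d = (c * x ^ (-d) - algebraMap K F a) * x ^ d := by
    intro a
    rw [sub_mul, mul_assoc, ← zpow_add₀ hx0, neg_add_cancel, zpow_zero, mul_one]
  obtain ⟨a, ha | ha⟩ := hw_exists_const x v humem
  · refine ⟨a, ?_, ?_⟩
    · rintro rfl
      rw [map_zero] at ha
      exact hu0 ha
    · rw [hsub, ha, sub_self, zero_mul]
      exact (dw_Binf K x _).zero_mem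
  · have hne : c * x ^ (-d) - algebraMap K F a ≠ 0 := by
      intro h0
      rw [h0] at ha
      simp at ha
    have ha0 : a ≠ 0 := by
      rintro rfl
      rw [map_zero, sub_zero] at ha
      have := (dw_valuation_lt_one_iff v hu0).mpr ha
      rw [hu1] at this
      exact lt_irrefl _ this
    refine ⟨a, ha0, ?_⟩
    set c' := c - algebraMap K F a * x ^ d with hc'
    have hc'0 : c' ≠ 0 := by
      rw [hc', hsub]
      exact mul_ne_zero hne (zpow_ne_zero _ hx0)
    have hc'mem : c' ∈ K⟮x⟯ :=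
      sub_mem hc (mul_mem (IntermediateField.algebraMap_mem _ a) (zpow_mem (mem_adjoin_simple_self K x) d))
    obtain ⟨d', hd'⟩ := dw_exists_unitInf hc'mem hc'0
    have h1 := hd' v hv'
    rw [dw_valuation_eq_one_iff v (mul_ne_zero hc'0 (zpow_ne_zero _ hx0)),
      v.ord_mul hc'0 (zpow_ne_zero _ hx0), v.ord_zpow] at h1
    have h2 : 0 < v.ord c' + -d * v.ord x := by
      have : c' * x ^ (-d) = c * x ^ (-d) - algebraMap K F a := by
        rw [hc', hsub, mul_assoc, ← zpow_add₀ hx0, add_neg_cancel, zpow_zero, mul_one]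
      rw [← v.ord_zpow, ← v.ord_mul hc'0 (zpow_ne_zero _ hx0), this]
      exact ha
    have h3 : d' ≤ d - 1 := by
      by_contra hcon
      push Not at hcon
      nlinarith
    exact dw_Binf_anti x (by omega) (dw_unitInf_mem_Binf hd')

include hx in
/-- Euclidean division in `K(x)`: polynomial part plus a proper fraction. -/
theorem dw_exists_poly_sub_mem (N : ℕ) :
    ∀ {c : F}, c ∈ K⟮x⟯ → c ∈ dw_Binf K x (1 - (N : ℤ)) →
      ∃ p : K[X], p ∈ degreeLT K N ∧ c - aeval x p ∈ dw_Binf K x 1 := by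
  induction N with
  | zero =>
    intro c _ hc
    exact ⟨0, Submodule.zero_mem _, by simpa using hc⟩
  | succ N ih =>
    intro c hck hc
    by_cases hc' : c ∈ dw_Binf K x (1 - (N : ℤ))
    · obtain ⟨p, hp, hp'⟩ := ih hck hc'
      exact ⟨p, degreeLT_mono (Nat.le_succ N) hp, hp'⟩
    · have hc0 : c ≠ 0 := by
        rintro rfl; exact hc' (Submodule.zero_mem _)
      obtain ⟨d, hd⟩ := dw_exists_unitInf hck hc0
      have hdeg := dw_deg_eq_of_unitInf hx hd
      have h1 : d ≤ N := by
        rw [← hdeg, dw_deg_le_iff hx hc0]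
        convert hc using 2
        push_cast; ring
      have h2 : ¬ d ≤ (N : ℤ) - 1 := by
        rw [← hdeg, dw_deg_le_iff hx hc0]
        have : -((N : ℤ) - 1) = 1 - (N : ℤ) := by ring
        rw [this]
        exact hc'
      have hdN : d = N := by omega
      subst hdN
      obtain ⟨a, -, ha⟩ := dw_exists_leading hx hck hd
      have hmem : c - algebraMap K F a * x ^ ((N : ℕ) : ℤ) ∈ K⟮x⟯ :=
        sub_mem hck (mul_mem (IntermediateField.algebraMap_mem _ a) (zpow_mem (mem_adjoin_simple_self K x) _))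
      obtain ⟨p, hp, hp'⟩ := ih hmem (by convert ha using 2; ring)
      refine ⟨p + C a * X ^ N, ?_, ?_⟩
      · refine Submodule.add_mem _ (degreeLT_mono (Nat.le_succ N) hp) ?_
        rw [mem_degreeLT]
        exact lt_of_le_of_lt (degree_C_mul_X_pow_le N a) (by exact_mod_cast Nat.lt_succ_self N)
      · have : c - aeval x (p + C a * X ^ N) =
            c - algebraMap K F a * x ^ ((N : ℕ) : ℤ) - aeval x p := by
          rw [map_add, map_mul, aeval_C, map_pow, aeval_X, zpow_natCast]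
          ring
        rw [this]
        exact hp'

omit [IsAlgClosed K] [CharZero K] [FiniteDimensional K⟮x⟯ F] in
theorem dw_aeval_mem_B (p : K[X]) : aeval x p ∈ dw_B K x := by
  have hxB : x ∈ dw_B K x := fun v hv => hv
  have := (aeval (⟨x, hxB⟩ : dw_B K x) p).2
  rwa [aeval_subalgebra_coe] at this

omit [IsAlgClosed K] [CharZero K] [FiniteDimensional K⟮x⟯ F] in
theorem dw_aeval_mem_Binf {p : K[X]} {N : ℕ} (hp : p ∈ degreeLT K N) :
    aeval x p ∈ dw_Binf K x (1 - (N : ℤ)) := by
  rcases eq_or_ne p 0 with rfl | hp0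
  · rw [map_zero]; exact Submodule.zero_mem _
  · have h1 := dw_unitInf_mem_Binf (dw_unitInf_aeval (K := K) (x := x) hp0)
    rw [mem_degreeLT, degree_eq_natDegree hp0] at hp
    have h2 : p.natDegree < N := by exact_mod_cast hp
    exact dw_Binf_anti x (by omega) h1

omit [IsAlgClosed K] [CharZero K] [FiniteDimensional K⟮x⟯ F] in
theorem dw_aeval_mem_adjoin (p : K[X]) : aeval x p ∈ K⟮x⟯ := by
  rw [mem_adjoin_simple_iff]
  exact ⟨p, 1, by simp⟩

include hx in
/-- Elements of `K(x)` that are regular at all finite places are polynomials in `x`. -/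
theorem dw_mem_B_inter_Binf_iff {c : F} (hc : c ∈ K⟮x⟯) (N : ℕ) :
    (c ∈ dw_B K x ∧ c ∈ dw_Binf K x (1 - (N : ℤ))) ↔ ∃ p ∈ degreeLT K N, c = aeval x p := by
  constructor
  · rintro ⟨hB, hinf⟩
    obtain ⟨p, hp, hp'⟩ := dw_exists_poly_sub_mem hx N hc hinf
    refine ⟨p, hp, ?_⟩
    have := dw_eq_zero_of_mem_B_of_mem_Binf_one hx
      ((dw_B K x).sub_mem hB (dw_aeval_mem_B p)) hp'
    exact sub_eq_zero.mp this
  · rintro ⟨p, hp, rfl⟩
    exact ⟨dw_aeval_mem_B p, dw_aeval_mem_Binf hp⟩

include hx in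
/-- Elements of `K(x)` that are regular at all finite places are polynomials in `x`. -/
theorem dw_exists_poly_of_mem_B {c : F} (hc : c ∈ K⟮x⟯) (hB : c ∈ dw_B K x) :
    ∃ p : K[X], c = aeval x p := by
  rcases eq_or_ne c 0 with rfl | hc0
  · exact ⟨0, by simp⟩
  obtain ⟨d, hd⟩ := dw_exists_unitInf hc hc0
  have h1 := dw_unitInf_mem_Binf hd
  have h2 : c ∈ dw_Binf K x (1 - ((d.toNat + 1 : ℕ) : ℤ)) :=
    dw_Binf_anti x (by push_cast; omega) h1
  obtain ⟨p, -, hp⟩ := (dw_mem_B_inter_Binf_iff hx hc _).mp ⟨hB, h2⟩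
  exact ⟨p, hp⟩

open scoped IntermediateField.algebraAdjoinAdjoin in
omit [IsAlgClosed K] [CharZero K] in
/-- Every function is a quotient of a function regular at the finite places by a polynomial
in `x`. -/
theorem dw_exists_mul_mem_B (f : F) : ∃ p : K[X], aeval x p ≠ 0 ∧ aeval x p * f ∈ dw_B K x := by
  have halg : IsAlgebraic K⟮x⟯ f := Algebra.IsAlgebraic.isAlgebraic f
  have halg' : IsAlgebraic (Algebra.adjoin K ({x} : Set F)) f :=
    (IsFractionRing.isAlgebraic_iff (Algebra.adjoin K ({x} : Set F)) K⟮x⟯ F).mpr halg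
  obtain ⟨y, hy0, hy⟩ := halg'.exists_integral_multiple
  obtain ⟨p, hp⟩ : ∃ p : K[X], aeval x p = (y : F) := by
    have h1 : (y : F) ∈ Algebra.adjoin K ({x} : Set F) := y.2
    have h2 : (y : F) ∈ (aeval (R := K) x).range := by
      rwa [← Algebra.adjoin_singleton_eq_range_aeval]
    exact h2
  refine ⟨p, ?_, ?_⟩
  · rw [hp]
    simpa using hy0
  · rw [hp]
    intro v hv
    exact hw_coe_mem_of_mem_integralClosure x v hv ⟨y • f, hy⟩

include hx in
theorem dw_exists_poly_sub_mem' {c : F} (hc : c ∈ K⟮x⟯) :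
    ∃ p : K[X], c - aeval x p ∈ dw_Binf K x 1 := by
  rcases eq_or_ne c 0 with rfl | hc0
  · exact ⟨0, by simp⟩
  obtain ⟨d, hd⟩ := dw_exists_unitInf hc hc0
  have h1 := dw_unitInf_mem_Binf hd
  have h2 : c ∈ dw_Binf K x (1 - ((d.toNat + 1 : ℕ) : ℤ)) :=
    dw_Binf_anti x (by push_cast; omega) h1
  obtain ⟨p, -, hp⟩ := dw_exists_poly_sub_mem hx _ hc h2
  exact ⟨p, hp⟩

end

end Fermat.Agent.S20
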