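import Mathlib
import Fermat.Agent.S20.Reduced.Lattice

/-!
# S20 / reduced bases: existence and the two coordinate criteria

A basis of `F` over `K(x)` consisting of functions regular at the finite places is *reduced* if
none of its members can be replaced by a function of smaller degree at infinity.  For a reduced
basis, membership in `dw_B` and in `dw_Binf` can be read off coordinatewise.
-/

set_option autoImplicit false

namespace Fermat.Agent.S20

open AlgebraicCurve IntermediateField Polynomial Module Fermat.Agent.S24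

universe u v
variable {K : Type u} {F : Type v} [Field K] [Field F] [Algebra K F]

/-- A reduced basis of `F` over `K(x)`. -/
structure dw_Reduced (x : F) {n : ℕ} (b : Basis (Fin n) K⟮x⟯ F) : Prop where
  mem : ∀ i, b i ∈ dw_B K x
  min : ∀ g ∈ dw_B K x, ∀ j, b.repr g j ≠ 0 → dw_deg K x (b j) ≤ dw_deg K x g

theorem dw_smul_eq_mul {x : F} (c : K⟮x⟯) (f : F) : c • f = (c : F) * f := rfl

theorem dw_sum_repr {x : F} {n : ℕ} (b : Basis (Fin n) K⟮x⟯ F) (f : F) :
    ∑ i, ((b.repr f i : K⟮x⟯) : F) * b i = f := by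
  conv_rhs => rw [← b.sum_repr f]
  rfl

theorem dw_repr_sum {x : F} {n : ℕ} (b : Basis (Fin n) K⟮x⟯ F) (c : Fin n → K⟮x⟯) (i : Fin n) :
    b.repr (∑ j, ((c j : K⟮x⟯) : F) * b j) i = c i := by
  have : ∑ j, ((c j : K⟮x⟯) : F) * b j = ∑ j, c j • b j := rfl
  rw [this, b.repr_sum_self]

section
variable [IsAlgClosed K] [CharZero K] {x : F} (hx : Transcendental K x) [FiniteDimensional K⟮x⟯ F]

omit [IsAlgClosed K] [CharZero K] in
/-- There is a basis consisting of functions regular at the finite places. -/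
theorem dw_exists_basis_mem_B :
    ∃ b : Basis (Fin (finrank K⟮x⟯ F)) K⟮x⟯ F, ∀ i, b i ∈ dw_B K x := by
  let b0 := finBasis K⟮x⟯ F
  choose p hp0 hp using fun i => dw_exists_mul_mem_B (K := K) (x := x) (b0 i)
  let w : Fin (finrank K⟮x⟯ F) → K⟮x⟯ˣ := fun i =>
    Units.mk0 ⟨aeval x (p i), dw_aeval_mem_adjoin (p i)⟩ (by
      intro h
      exact hp0 i (congrArg Subtype.val h))
  refine ⟨b0.unitsSMul w, fun i => ?_⟩
  rw [Basis.unitsSMul_apply]
  exact hp i

/-- Replacing a member of a basis by a vector with nonzero corresponding coordinate. -/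
theorem dw_exists_basis_update {k V : Type*} [Field k] [AddCommGroup V] [Module k V]
    [FiniteDimensional k V] {n : ℕ} (b : Basis (Fin n) k V) (j : Fin n) (g : V)
    (hg : b.repr g j ≠ 0) : ∃ b' : Basis (Fin n) k V, ⇑b' = Function.update b j g := by
  have hli : LinearIndependent k (Function.update b j g) := by
    refine b.linearIndependent.update j g ⟨1, one_mem _, b.repr g, ?_, ?_⟩
    · exact mem_nonZeroDivisors_of_ne_zero hg
    · rw [one_smul, b.linearCombination_repr]
  have hcard : Fintype.card (Fin n) = finrank k V := (finrank_eq_card_basis b).symm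
  exact ⟨basisOfLinearIndependentOfCardEqFinrank' _ hli hcard,
    coe_basisOfLinearIndependentOfCardEqFinrank' _ _ _⟩

include hx in
/-- **Existence of reduced bases.** -/
theorem dw_exists_reduced_basis :
    ∃ b : Basis (Fin (finrank K⟮x⟯ F)) K⟮x⟯ F, dw_Reduced x b := by
  classical
  obtain ⟨b₀, hb₀⟩ := dw_exists_basis_mem_B (K := K) (x := x)
  have hex : ∃ s : ℕ, ∃ b : Basis (Fin (finrank K⟮x⟯ F)) K⟮x⟯ F,
      (∀ i, b i ∈ dw_B K x) ∧ ∑ i, (dw_deg K x (b i)).toNat = s := ⟨_, b₀, hb₀, rfl⟩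
  obtain ⟨b, hb, hs⟩ := Nat.find_spec hex
  have hmin := fun s' (h : s' < Nat.find hex) => Nat.find_min hex h
  refine ⟨b, hb, ?_⟩
  intro g hg j hj
  by_contra hlt
  push Not at hlt
  have hg0 : g ≠ 0 := by
    rintro rfl
    simp at hj
  have hdeg0 := dw_deg_nonneg_of_mem_B hx hg hg0
  obtain ⟨b', hb'⟩ := dw_exists_basis_update b j g hj
  have hmem' : ∀ i, b' i ∈ dw_B K x := by
    intro i
    rw [hb']
    by_cases hij : i = j
    · subst hij; simpa using hg
    · simpa [Function.update_of_ne hij] using hb i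
  have hsum : ∑ i, (dw_deg K x (b' i)).toNat < ∑ i, (dw_deg K x (b i)).toNat := by
    apply Finset.sum_lt_sum
    · intro i _
      rw [hb']
      by_cases hij : i = j
      · subst hij
        simp only [Function.update_self]
        omega
      · simp [Function.update_of_ne hij]
    · refine ⟨j, Finset.mem_univ _, ?_⟩
      rw [hb']
      simp only [Function.update_self]
      omega
  rw [hs] at hsum
  exact hmin _ hsum ⟨b', hmem', rfl⟩

variable {n : ℕ} {b : Basis (Fin n) K⟮x⟯ F} (hb : dw_Reduced x b)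

include hx hb in
theorem dw_Reduced.deg_nonneg (i : Fin n) : 0 ≤ dw_deg K x (b i) :=
  dw_deg_nonneg_of_mem_B hx (hb.mem i) (b.ne_zero i)

include hx in
omit hb in
theorem dw_basis_mem_Binf (b : Basis (Fin n) K⟮x⟯ F) (i : Fin n) :
    b i ∈ dw_Binf K x (-(dw_deg K x (b i))) :=
  dw_mem_Binf_deg hx (b.ne_zero i)

include hx hb in
/-- **(R1)** Coordinates of functions regular at the finite places are polynomials. -/
theorem dw_Reduced.repr_mem_B {f : F} (hf : f ∈ dw_B K x) (i : Fin n) :
    ((b.repr f i : K⟮x⟯) : F) ∈ dw_B K x := by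
  classical
  choose p hp using fun i => dw_exists_poly_sub_mem' hx (b.repr f i).2
  -- the proper-fraction parts
  set r : Fin n → K⟮x⟯ := fun i => b.repr f i - ⟨aeval x (p i), dw_aeval_mem_adjoin (p i)⟩ with hr
  have hrcoe : ∀ i, ((r i : K⟮x⟯) : F) = (b.repr f i : F) - aeval x (p i) := fun i => rfl
  set f' : F := ∑ i, ((r i : K⟮x⟯) : F) * b i with hf'
  have hf'B : f' ∈ dw_B K x := by
    have : f' = f - ∑ i, aeval x (p i) * b i := by
      rw [hf', ← dw_sum_repr b f, ← Finset.sum_sub_distrib]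
      refine Finset.sum_congr rfl fun i _ => ?_
      rw [hrcoe, sub_mul]
    rw [this]
    exact (dw_B K x).sub_mem hf ((dw_B K x).sum_mem fun i _ =>
      (dw_B K x).mul_mem (dw_aeval_mem_B _) (hb.mem i))
  have hrepr : ∀ i, b.repr f' i = r i := fun i => dw_repr_sum b r i
  have hall : ∀ i, r i = 0 := by
    by_contra hne
    push Not at hne
    have hS : (Finset.univ.filter fun i => r i ≠ 0).Nonempty := by
      obtain ⟨i, hi⟩ := hne
      exact ⟨i, by simp [hi]⟩
    obtain ⟨j, hjS, hjmax⟩ := Finset.exists_max_image _ (fun i => dw_deg K x (b i)) hS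
    simp only [Finset.mem_filter, Finset.mem_univ, true_and] at hjS hjmax
    have hf'0 : f' ≠ 0 := by
      intro h0
      have := hrepr j
      rw [h0] at this
      simp at this
      exact hjS this.symm
    have h1 := hb.min f' hf'B j (by rw [hrepr]; exact hjS)
    have h2 : f' ∈ dw_Binf K x (-(dw_deg K x (b j) - 1)) := by
      refine (dw_Binf K x _).sum_mem fun i _ => ?_
      by_cases hi : r i = 0
      · rw [hi]; simp
      · have h4 : ((r i : K⟮x⟯) : F) ∈ dw_Binf K x 1 := by rw [hrcoe]; exact hp i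
        have h3 := dw_mul_mem_Binf (dw_x_ne_zero hx) h4 (dw_basis_mem_Binf hx b i)
        exact dw_Binf_anti x (by have := hjmax i hi; omega) h3
    have := (dw_deg_le_iff hx hf'0).mpr h2
    omega
  have : (b.repr f i : F) = aeval x (p i) := by
    have := hall i
    rw [hr] at this
    have h2 := congrArg (fun t : K⟮x⟯ => (t : F)) this
    simp only [AddSubgroupClass.coe_sub, ZeroMemClass.coe_zero] at h2
    exact sub_eq_zero.mp h2
  rw [this]
  exact dw_aeval_mem_B _

include hx hb in
/-- **(R2)** Coordinates of functions in `x ^ (-m) B_∞`. -/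
theorem dw_Reduced.repr_mem_Binf {f : F} {m : ℤ} (hf : f ∈ dw_Binf K x m) (i₀ : Fin n) :
    ((b.repr f i₀ : K⟮x⟯) : F) ∈ dw_Binf K x (m + dw_deg K x (b i₀)) := by
  classical
  have hx0 := dw_x_ne_zero hx
  by_contra hi₀
  set c : Fin n → K⟮x⟯ := fun i => b.repr f i with hc
  set a : Fin n → ℤ := fun i => dw_deg K x (b i) with ha
  -- the weights
  set e : Fin n → ℤ := fun i => dw_deg K x ((c i : K⟮x⟯) : F) + a i with he
  have hci₀ : c i₀ ≠ 0 := by
    intro h0
    apply hi₀
    change ((c i₀ : K⟮x⟯) : F) ∈ _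
    rw [h0]
    exact Submodule.zero_mem _
  have hcoe0 : ∀ i, c i ≠ 0 → ((c i : K⟮x⟯) : F) ≠ 0 := fun i hi h0 => hi (Subtype.ext h0)
  have hS : (Finset.univ.filter fun i => c i ≠ 0).Nonempty := ⟨i₀, by simp [hci₀]⟩
  obtain ⟨i₁, hi₁S, hi₁max⟩ := Finset.exists_max_image _ e hS
  simp only [Finset.mem_filter, Finset.mem_univ, true_and] at hi₁S hi₁max
  set M := e i₁ with hM
  have hMm : 1 - M ≤ m := by
    have h1 : ¬ dw_deg K x ((c i₀ : K⟮x⟯) : F) ≤ -(m + a i₀) := by
      rw [dw_deg_le_iff hx (hcoe0 _ hci₀), neg_neg]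
      exact hi₀
    have h2 := hi₁max i₀ hci₀
    simp only [he] at h2 hM
    omega
  have hfM : f ∈ dw_Binf K x (1 - M) := dw_Binf_anti x hMm hf
  -- the set of indices of maximal weight
  set I := Finset.univ.filter fun i => c i ≠ 0 ∧ e i = M with hI
  have hIne : I.Nonempty := ⟨i₁, by simp [hI, hi₁S, hM]⟩
  obtain ⟨j, hjI, hjmax⟩ := Finset.exists_max_image _ a hIne
  simp only [hI, Finset.mem_filter, Finset.mem_univ, true_and] at hjI hjmax
  -- leading coefficients
  have hlead : ∀ i, ∃ l : K, c i ≠ 0 → l ≠ 0 ∧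
      ((c i : K⟮x⟯) : F) - algebraMap K F l * x ^ (dw_deg K x ((c i : K⟮x⟯) : F)) ∈
        dw_Binf K x (-(dw_deg K x ((c i : K⟮x⟯) : F) - 1)) := by
    intro i
    by_cases hi : c i = 0
    · exact ⟨0, fun h => (h hi).elim⟩
    · obtain ⟨d, hd⟩ := dw_exists_unitInf (c i).2 (hcoe0 i hi)
      have hdeg := dw_deg_eq_of_unitInf hx hd
      obtain ⟨l, hl0, hl⟩ := dw_exists_leading hx (c i).2 hd
      exact ⟨l, fun _ => ⟨hl0, by rw [hdeg]; exact hl⟩⟩
  choose lam hlam using hlead
  -- the remainders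
  set t : Fin n → F := fun i =>
    if i ∈ I then ((c i : K⟮x⟯) : F) - algebraMap K F (lam i) * x ^ (M - a i)
    else ((c i : K⟮x⟯) : F) with ht
  have htmem : ∀ i, t i * b i ∈ dw_Binf K x (1 - M) := by
    intro i
    by_cases hiI : i ∈ I
    · have hiI' : c i ≠ 0 ∧ e i = M := by simpa [hI] using hiI
      have hdi : dw_deg K x ((c i : K⟮x⟯) : F) = M - a i := by
        have := hiI'.2
        simp only [he] at this
        omega
      have h1 := (hlam i hiI'.1).2
      rw [hdi] at h1
      have h2 := dw_mul_mem_Binf hx0 h1 (dw_basis_mem_Binf hx b i)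
      simp only [ht, if_pos hiI]
      convert h2 using 2
      simp only [ha]
      ring
    · simp only [ht, if_neg hiI]
      by_cases hi : c i = 0
      · rw [hi]; simp
      · have h1 : e i ≠ M := fun h => hiI (by simp [hI, hi, h])
        have h2 := hi₁max i hi
        have h3 := dw_mul_mem_Binf hx0 (dw_mem_Binf_deg hx (hcoe0 i hi)) (dw_basis_mem_Binf hx b i)
        refine dw_Binf_anti x ?_ h3
        simp only [he, ha] at h1 h2 hM ⊢
        omega
  -- the competitor
  set μ : Fin n → K⟮x⟯ := fun i =>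
    if i ∈ I then algebraMap K K⟮x⟯ (lam i) * (AdjoinSimple.gen K x) ^ (a j - a i).toNat
    else 0 with hμ
  set g : F := ∑ i, ((μ i : K⟮x⟯) : F) * b i with hg
  have hμcoe : ∀ i, ((μ i : K⟮x⟯) : F) = x ^ (a j - M) * (((c i : K⟮x⟯) : F) - t i) := by
    intro i
    by_cases hiI : i ∈ I
    · have hiI' : c i ≠ 0 ∧ e i = M := by simpa [hI] using hiI
      have haij : a i ≤ a j := hjmax i hiI'
      simp only [hμ, ht, if_pos hiI]
      rw [sub_sub_cancel]
      push_cast [AdjoinSimple.coe_gen]
      have : x ^ (a j - a i).toNat = x ^ (a j - M) * x ^ (M - a i) := by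
        rw [← zpow_natCast, ← zpow_add₀ hx0]
        congr 1
        omega
      rw [this]
      ring
    · simp only [hμ, ht, if_neg hiI]
      simp
  have hgB : g ∈ dw_B K x := by
    refine (dw_B K x).sum_mem fun i _ => (dw_B K x).mul_mem ?_ (hb.mem i)
    by_cases hiI : i ∈ I
    · simp only [hμ, if_pos hiI]
      push_cast
      exact (dw_B K x).mul_mem ((dw_B K x).algebraMap_mem _)
        ((dw_B K x).pow_mem (fun v hv => hv) _)
    · simp only [hμ, if_neg hiI]
      simp
  have hgj : b.repr g j ≠ 0 := by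
    rw [hg, dw_repr_sum b μ j]
    have hjI' : j ∈ I := by simp [hI, hjI]
    simp only [hμ, if_pos hjI']
    have hl := (hlam j hjI.1).1
    simp only [sub_self, Int.toNat_zero, pow_zero, mul_one, ne_eq,
      FaithfulSMul.algebraMap_eq_zero_iff]
    exact hl
  have hg0 : g ≠ 0 := by
    rintro h0
    rw [h0] at hgj
    simp at hgj
  have hgmem : g ∈ dw_Binf K x (1 - a j) := by
    have h1 : g = x ^ (a j - M) * (f - ∑ i, t i * b i) := by
      rw [hg, ← dw_sum_repr b f, ← Finset.sum_sub_distrib, Finset.mul_sum]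
      refine Finset.sum_congr rfl fun i _ => ?_
      rw [hμcoe i]
      simp only [hc]
      ring
    rw [h1, mul_comm, dw_mul_zpow_mem_Binf hx0]
    have h2 : 1 - a j + (a j - M) = 1 - M := by ring
    rw [h2]
    exact (dw_Binf K x _).sub_mem hfM ((dw_Binf K x _).sum_mem fun i _ => htmem i)
  have h1 := hb.min g hgB j hgj
  have h2 : dw_deg K x g ≤ a j - 1 := by
    rw [dw_deg_le_iff hx hg0]
    convert hgmem using 2
    ring
  simp only [ha] at h2
  omega

include hx hb in
/-- **(R1)** as an equivalence. -/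
theorem dw_Reduced.mem_B_iff {f : F} :
    f ∈ dw_B K x ↔ ∀ i, ((b.repr f i : K⟮x⟯) : F) ∈ dw_B K x := by
  refine ⟨fun hf i => hb.repr_mem_B hx hf i, fun h => ?_⟩
  rw [← dw_sum_repr b f]
  exact (dw_B K x).sum_mem fun i _ => (dw_B K x).mul_mem (h i) (hb.mem i)

include hx hb in
/-- **(R2)** as an equivalence. -/
theorem dw_Reduced.mem_Binf_iff {f : F} {m : ℤ} :
    f ∈ dw_Binf K x m ↔
      ∀ i, ((b.repr f i : K⟮x⟯) : F) ∈ dw_Binf K x (m + dw_deg K x (b i)) := by
  refine ⟨fun hf i => hb.repr_mem_Binf hx hf i, fun h => ?_⟩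
  rw [← dw_sum_repr b f]
  refine (dw_Binf K x m).sum_mem fun i _ => ?_
  have := dw_mul_mem_Binf (dw_x_ne_zero hx) (h i) (dw_basis_mem_Binf hx b i)
  rwa [add_neg_cancel_right] at this

include hx hb in
/-- Some member of a reduced basis has degree zero (if the basis is nonempty). -/
theorem dw_Reduced.exists_deg_eq_zero : ∃ i, dw_deg K x (b i) = 0 := by
  have h1 : (1 : F) ∈ dw_B K x := (dw_B K x).one_mem
  have hne : ∃ j, b.repr (1 : F) j ≠ 0 := by
    by_contra hcon
    push Not at hcon
    have : b.repr (1 : F) = 0 := Finsupp.ext hcon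
    rw [map_eq_zero_iff _ b.repr.injective] at this
    exact one_ne_zero this
  obtain ⟨j, hj⟩ := hne
  refine ⟨j, le_antisymm ?_ (hb.deg_nonneg hx j)⟩
  have h2 := hb.min 1 h1 j hj
  have h3 : dw_deg K x (1 : F) = 0 := by
    have := dw_deg_eq_of_unitInf hx (dw_unitInf_algebraMap (K := K) (x := x) (one_ne_zero))
    rwa [map_one] at this
  omega

end

end Fermat.Agent.S20
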