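/-
M3 Part B (S20), block (L-alg): the rational function field `K(x)` inside a function field `F`,
in place language.  Orders of polynomials in `x` at the places of `F`, characterisation of the
polynomials of degree `≤ d` by regularity conditions, dimension of that space, and partial
fractions.
-/
import Mathlib
import Fermat.Agent.S24.Hurwitz.Interface

set_option autoImplicit false

namespace Fermat.Agent.S20

open AlgebraicCurve IntermediateField Polynomial
open Fermat.Agent.S24

universe u v
variable {K : Type u} {F : Type v} [Field K] [Field F] [Algebra K F]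

/-! ### orders of polynomials -/

theorem dr_aeval_mem (v : Place K F) {x : F} (hx : x ∈ v.toValuationSubring) (p : K[X]) :
    aeval x p ∈ v.toValuationSubring := by
  induction p using Polynomial.induction_on' with
  | add p q hp hq => rw [map_add]; exact add_mem hp hq
  | monomial n a =>
    rw [aeval_monomial]
    exact mul_mem (v.algebraMap_mem' a) (pow_mem hx n)

/-- a polynomial with nonzero constant term, evaluated at an element of positive order, is a
unit at `v` -/
theorem dr_aeval_unit_of_coeff_zero_ne (v : Place K F) {y : F} (hy : 0 < v.ord y) {q : K[X]}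
    (hq : q.coeff 0 ≠ 0) : aeval y q ≠ 0 ∧ v.ord (aeval y q) = 0 := by
  have hy0 : y ≠ 0 := by
    rintro rfl
    simp at hy
  have hymem : y ∈ v.toValuationSubring := (hw_mem_iff_ord_nonneg v hy0).mpr hy.le
  have hdec : aeval y q = algebraMap K F (q.coeff 0) + y * aeval y q.divX := by
    conv_lhs => rw [← Polynomial.divX_mul_X_add q]
    rw [map_add, map_mul, aeval_X, aeval_C]
    ring
  have hc : algebraMap K F (q.coeff 0) ≠ 0 := by simpa using hq
  rw [hdec]
  by_cases hr : y * aeval y q.divX = 0
  · rw [hr, add_zero, hw_ord_algebraMap]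
    exact ⟨hc, rfl⟩
  · have hr2 : aeval y q.divX ≠ 0 := right_ne_zero_of_mul hr
    have hpos : v.ord (algebraMap K F (q.coeff 0)) < v.ord (y * aeval y q.divX) := by
      rw [hw_ord_algebraMap, v.ord_mul hy0 hr2]
      have := (hw_mem_iff_ord_nonneg v hr2).mp (dr_aeval_mem v hymem _)
      omega
    refine ⟨?_, by rw [hw_ord_add_eq_of_lt v hc hr hpos, hw_ord_algebraMap]⟩
    intro h'
    have : algebraMap K F (q.coeff 0) = -(y * aeval y q.divX) := eq_neg_of_add_eq_zero_left h'
    rw [this, hw_ord_neg] at hpos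
    exact lt_irrefl _ hpos

/-- order of a polynomial in `x` at a pole of `x` -/
theorem dr_ord_aeval_of_pole (v : Place K F) {x : F} (hx : v.ord x < 0) {p : K[X]} (hp : p ≠ 0) :
    aeval x p ≠ 0 ∧ v.ord (aeval x p) = p.natDegree * v.ord x := by
  have hx0 : x ≠ 0 := by
    rintro rfl
    simp at hx
  let _ : Invertible x := invertibleOfNonzero hx0
  have h1 : aeval x⁻¹ p.reverse * x ^ p.natDegree = aeval x p := by
    have := Polynomial.eval₂_reverse_mul_pow (algebraMap K F) x p
    rw [invOf_eq_inv] at this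
    exact this
  have h2 := dr_aeval_unit_of_coeff_zero_ne v (y := x⁻¹) (q := p.reverse)
    (by rw [v.ord_inv]; omega)
    (by rw [Polynomial.coeff_zero_reverse]; exact leadingCoeff_ne_zero.mpr hp)
  refine ⟨?_, ?_⟩
  · rw [← h1]
    exact mul_ne_zero h2.1 (pow_ne_zero _ hx0)
  · rw [← h1, v.ord_mul h2.1 (pow_ne_zero _ hx0), h2.2, zero_add, ← zpow_natCast, v.ord_zpow]

/-- order of a polynomial in `x` at a place over `x = α` -/
theorem dr_ord_aeval_of_fiber (v : Place K F) {x : F} {α : K}
    (hv : 0 < v.ord (x - algebraMap K F α)) {p : K[X]} (hp : p ≠ 0) :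
    aeval x p ≠ 0 ∧ v.ord (aeval x p) = p.rootMultiplicity α * v.ord (x - algebraMap K F α) := by
  obtain ⟨q, hpq, hq⟩ := Polynomial.exists_eq_pow_rootMultiplicity_mul_and_not_dvd p hp α
  have hy0 : x - algebraMap K F α ≠ 0 := by
    intro h
    rw [h] at hv
    simp at hv
  -- shift the variable
  have hq0 : (q.comp (X + C α)).coeff 0 ≠ 0 := by
    rw [Polynomial.coeff_zero_eq_eval_zero, eval_comp]
    simp only [eval_add, eval_X, eval_C, zero_add]
    intro h
    exact hq ((dvd_iff_isRoot).mpr h)
  have hshift : aeval (x - algebraMap K F α) (q.comp (X + C α)) = aeval x q := by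
    rw [aeval_comp]
    simp
  have h2 := dr_aeval_unit_of_coeff_zero_ne v hv hq0
  rw [hshift] at h2
  have hval : aeval x p = (x - algebraMap K F α) ^ p.rootMultiplicity α * aeval x q := by
    conv_lhs => rw [hpq]
    simp
  refine ⟨?_, ?_⟩
  · rw [hval]
    exact mul_ne_zero (pow_ne_zero _ hy0) h2.1
  · rw [hval, v.ord_mul (pow_ne_zero _ hy0) h2.1, h2.2, add_zero, ← zpow_natCast, v.ord_zpow]


/-! ### existence of places -/

section places

variable [IsAlgClosed K] [CharZero K]

theorem dr_exists_place_over (x : F) (hx : Transcendental K x) [FiniteDimensional K⟮x⟯ F]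
    (α : K) : ∃ v : Place K F, 0 < v.ord (x - algebraMap K F α) := by
  by_contra hcon
  have hempty : hw_placesOver x α = ∅ := by
    ext v
    simp only [hw_placesOver, Set.mem_ofPred_eq, Set.mem_empty_iff_false, iff_false]
    exact fun h => hcon ⟨v, h⟩
  have h := hw_sum_ord_placesOver x hx α
  rw [hempty, finsum_mem_empty] at h
  have hpos : 0 < Module.finrank K⟮x⟯ F := Module.finrank_pos
  omega

theorem dr_exists_place_infty (x : F) (hx : Transcendental K x) [FiniteDimensional K⟮x⟯ F] :
    ∃ v : Place K F, v.ord x < 0 := by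
  by_contra hcon
  have hempty : hw_placesAtInfty (K := K) x = ∅ := by
    ext v
    simp only [hw_placesAtInfty, Set.mem_ofPred_eq, Set.mem_empty_iff_false, iff_false]
    exact fun h => hcon ⟨v, h⟩
  have h := hw_sum_ord_placesAtInfty (K := K) x hx
  rw [hempty, finsum_mem_empty] at h
  have hpos : 0 < Module.finrank K⟮x⟯ F := Module.finrank_pos
  omega

/-- an element of `K(x)` that is regular at all finite places of `F` is a polynomial in `x` -/
theorem dr_exists_aeval_eq_of_regular (x : F) (hx : Transcendental K x)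
    [FiniteDimensional K⟮x⟯ F] {c : F} (hc : c ∈ K⟮x⟯)
    (hreg : ∀ v : Place K F, x ∈ v.toValuationSubring → c ∈ v.toValuationSubring) :
    ∃ p : K[X], aeval x p = c := by
  obtain ⟨P, Q, rfl⟩ := (IntermediateField.mem_adjoin_simple_iff K c).mp hc
  clear hc
  induction' hn : Q.natDegree using Nat.strong_induction_on with n ih generalizing P Q
  by_cases hP : P = 0
  · exact ⟨0, by simp [hP]⟩
  by_cases hQ0 : Q = 0
  · exact ⟨0, by simp [hQ0]⟩
  have hQ : aeval x Q ≠ 0 := fun h => hQ0 ((transcendental_iff.mp hx) Q h)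
  by_cases hdeg : Q.natDegree = 0
  · obtain ⟨a, rfl⟩ := Polynomial.natDegree_eq_zero.mp hdeg
    have ha : a ≠ 0 := by
      rintro rfl
      simp at hQ
    refine ⟨C a⁻¹ * P, ?_⟩
    rw [map_mul, aeval_C, aeval_C, map_inv₀]
    field_simp
  -- `Q` has a root
  obtain ⟨α, hα⟩ := IsAlgClosed.exists_root Q (by
    rw [Polynomial.degree_eq_natDegree hQ0]
    exact_mod_cast hdeg)
  obtain ⟨v, hv⟩ := dr_exists_place_over x hx α
  have hy0 : x - algebraMap K F α ≠ 0 := by
    intro h
    rw [h] at hv
    simp at hv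
  have hxmem : x ∈ v.toValuationSubring := by
    have h1 : x - algebraMap K F α ∈ v.toValuationSubring :=
      (hw_mem_iff_ord_nonneg v hy0).mpr hv.le
    have := add_mem h1 (v.algebraMap_mem' α)
    simpa using this
  have hcmem := hreg v hxmem
  have hPv := dr_ord_aeval_of_fiber v hv hP
  have hQv := dr_ord_aeval_of_fiber v hv hQ0
  have hc0 : aeval x P / aeval x Q ≠ 0 := div_ne_zero hPv.1 hQv.1
  have hcord := (hw_mem_iff_ord_nonneg v hc0).mp hcmem
  rw [div_eq_mul_inv, v.ord_mul hPv.1 (inv_ne_zero hQv.1), v.ord_inv, hPv.2, hQv.2] at hcord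
  have hmQ : 0 < Q.rootMultiplicity α := (Polynomial.rootMultiplicity_pos hQ0).mpr hα
  have hmP : 0 < P.rootMultiplicity α := by
    by_contra h0
    have h0' : P.rootMultiplicity α = 0 := by omega
    rw [h0'] at hcord
    have : (0 : ℤ) < (Q.rootMultiplicity α : ℤ) * v.ord (x - algebraMap K F α) :=
      mul_pos (by exact_mod_cast hmQ) hv
    simp at hcord
    omega
  have hPα : P.IsRoot α := (Polynomial.rootMultiplicity_pos hP).mp hmP
  obtain ⟨P', rfl⟩ := Polynomial.dvd_iff_isRoot.mpr hPα
  obtain ⟨Q', rfl⟩ := Polynomial.dvd_iff_isRoot.mpr hα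
  have hQ'0 : Q' ≠ 0 := right_ne_zero_of_mul hQ0
  have hlt : Q'.natDegree < n := by
    rw [← hn, Polynomial.natDegree_mul (Polynomial.X_sub_C_ne_zero α) hQ'0,
      Polynomial.natDegree_X_sub_C]
    omega
  have hXα : aeval x (X - C α) ≠ 0 := by
    simpa using hy0
  have heq : aeval x ((X - C α) * P') / aeval x ((X - C α) * Q') = aeval x P' / aeval x Q' := by
    rw [map_mul, map_mul]
    field_simp
  obtain ⟨p, hp⟩ := ih Q'.natDegree hlt P' Q' (by
    intro w hw
    have := hreg w hw
    rwa [heq] at this) rfl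
  exact ⟨p, by rw [hp, heq]⟩

/-- degree of a polynomial in `x` read off at the places over infinity -/
theorem dr_natDegree_le_iff (x : F) (hx : Transcendental K x) [FiniteDimensional K⟮x⟯ F]
    {p : K[X]} (hp : p ≠ 0) (d : ℤ) :
    (∀ v : Place K F, v.ord x < 0 → d * v.ord x ≤ v.ord (aeval x p)) ↔ (p.natDegree : ℤ) ≤ d := by
  constructor
  · intro h
    obtain ⟨v, hv⟩ := dr_exists_place_infty (K := K) x hx
    have := h v hv
    rw [(dr_ord_aeval_of_pole v hv hp).2] at this
    by_contra hlt
    push Not at hlt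
    have h2 : (p.natDegree : ℤ) * v.ord x < d * v.ord x := mul_lt_mul_of_neg_right hlt hv
    omega
  · intro h v hv
    rw [(dr_ord_aeval_of_pole v hv hp).2]
    exact mul_le_mul_of_nonpos_right h hv.le

omit [IsAlgClosed K] [CharZero K] in
/-- partial fractions: every element of `K(x)` is a polynomial plus an element vanishing at all
places over infinity -/
theorem dr_exists_poly_add (x : F) (hx : Transcendental K x) {c : F} (hc : c ∈ K⟮x⟯) :
    ∃ (p : K[X]) (e : F), e ∈ K⟮x⟯ ∧ c = aeval x p + e ∧
      ∀ v : Place K F, v.ord x < 0 → e * x ∈ v.toValuationSubring := by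
  obtain ⟨P, Q, rfl⟩ := (IntermediateField.mem_adjoin_simple_iff K c).mp hc
  by_cases hQ0 : Q = 0
  · refine ⟨0, 0, zero_mem _, by simp [hQ0], fun v _ => by simp [zero_mem]⟩
  have hQ : aeval x Q ≠ 0 := fun h => hQ0 ((transcendental_iff.mp hx) Q h)
  refine ⟨P / Q, aeval x (P % Q) / aeval x Q, ?_, ?_, ?_⟩
  · exact (IntermediateField.mem_adjoin_simple_iff K _).mpr ⟨_, _, rfl⟩
  · have h := congrArg (aeval x) (EuclideanDomain.div_add_mod P Q)
    rw [map_add, map_mul] at h
    rw [← h]
    field_simp
  · intro v hv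
    have hx0 : x ≠ 0 := by
      rintro rfl
      simp at hv
    by_cases hR : P % Q = 0
    · rw [hR]
      simp [zero_mem]
    have hRv := dr_ord_aeval_of_pole v hv hR
    have hQv := dr_ord_aeval_of_pole v hv hQ0
    have hne : aeval x (P % Q) / aeval x Q * x ≠ 0 :=
      mul_ne_zero (div_ne_zero hRv.1 hQv.1) hx0
    rw [hw_mem_iff_ord_nonneg v hne, v.ord_mul (div_ne_zero hRv.1 hQv.1) hx0, div_eq_mul_inv,
      v.ord_mul hRv.1 (inv_ne_zero hQv.1), v.ord_inv, hRv.2, hQv.2]
    have hdeg : (P % Q).natDegree < Q.natDegree :=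
      Polynomial.natDegree_lt_natDegree hR (Polynomial.degree_mod_lt P hQ0)
    have h1 : ((P % Q).natDegree : ℤ) + 1 ≤ Q.natDegree := by exact_mod_cast hdeg
    nlinarith

/-! ### the space of polynomials of degree `< m` in `x` -/

omit [IsAlgClosed K] [CharZero K] in
/-- polynomials in `x` of degree `< m`, as a `K`-subspace of `F` -/
noncomputable def dr_polyLT (x : F) (m : ℕ) : Submodule K F :=
  (Polynomial.degreeLT K m).map (aeval x : K[X] →ₐ[K] F).toLinearMap

omit [IsAlgClosed K] [CharZero K] in
theorem dr_mem_polyLT_iff (x : F) (m : ℕ) (c : F) :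
    c ∈ dr_polyLT (K := K) x m ↔ ∃ p : K[X], p.degree < m ∧ aeval x p = c := by
  rw [dr_polyLT, Submodule.mem_map]
  constructor
  · rintro ⟨p, hp, rfl⟩
    exact ⟨p, Polynomial.mem_degreeLT.mp hp, rfl⟩
  · rintro ⟨p, hp, rfl⟩
    exact ⟨p, Polynomial.mem_degreeLT.mpr hp, rfl⟩

omit [IsAlgClosed K] [CharZero K] in
theorem dr_polyLT_mono (x : F) {m m' : ℕ} (h : m ≤ m') :
    dr_polyLT (K := K) x m ≤ dr_polyLT x m' :=
  Submodule.map_mono (Polynomial.degreeLT_mono h)

omit [IsAlgClosed K] [CharZero K] in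
theorem dr_finrank_polyLT {x : F} (hx : Transcendental K x) (m : ℕ) :
    Module.finrank K (dr_polyLT (K := K) x m) = m := by
  have hinj : Function.Injective (aeval x : K[X] →ₐ[K] F).toLinearMap :=
    transcendental_iff_injective.mp hx
  rw [dr_polyLT, ← (Submodule.equivMapOfInjective _ hinj (Polynomial.degreeLT K m)).finrank_eq,
    (Polynomial.degreeLTEquiv K m).finrank_eq, Module.finrank_fin_fun]

omit [IsAlgClosed K] [CharZero K] in
instance dr_finiteDimensional_polyLT (x : F) (m : ℕ) :
    FiniteDimensional K (dr_polyLT (K := K) x m) := by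
  have : Module.Finite K (Polynomial.degreeLT K m) :=
    Module.Finite.equiv (Polynomial.degreeLTEquiv K m).symm
  rw [dr_polyLT]
  infer_instance

/-- **characterisation of polynomials of degree `≤ e`** inside `K(x)` by regularity at the finite
places and a pole bound at the places over infinity (`e : ℤ`; nothing but `0` for `e < 0`) -/
theorem dr_mem_polyLT_iff_regular (x : F) (hx : Transcendental K x) [FiniteDimensional K⟮x⟯ F]
    {c : F} (hc : c ∈ K⟮x⟯) (e : ℤ) :
    c ∈ dr_polyLT (K := K) x (e + 1).toNat ↔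
      (∀ v : Place K F, x ∈ v.toValuationSubring → c ∈ v.toValuationSubring) ∧
      (∀ v : Place K F, v.ord x < 0 → c * x ^ (-e) ∈ v.toValuationSubring) := by
  have hx0 : x ≠ 0 := by
    rintro rfl
    exact hx (isAlgebraic_zero)
  rw [dr_mem_polyLT_iff]
  constructor
  · rintro ⟨p, hp, rfl⟩
    refine ⟨fun v hv => dr_aeval_mem v hv p, fun v hv => ?_⟩
    by_cases hp0 : p = 0
    · simp [hp0, zero_mem]
    have hpv := dr_ord_aeval_of_pole v hv hp0
    have hne : aeval x p * x ^ (-e) ≠ 0 := mul_ne_zero hpv.1 (zpow_ne_zero _ hx0)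
    rw [hw_mem_iff_ord_nonneg v hne, v.ord_mul hpv.1 (zpow_ne_zero _ hx0), hpv.2, v.ord_zpow]
    have hdeg : (p.natDegree : ℤ) ≤ e := by
      rw [Polynomial.degree_eq_natDegree hp0] at hp
      have : p.natDegree < (e + 1).toNat := by exact_mod_cast hp
      omega
    nlinarith
  · rintro ⟨hfin, hinf⟩
    obtain ⟨p, rfl⟩ := dr_exists_aeval_eq_of_regular x hx hc hfin
    refine ⟨p, ?_, rfl⟩
    by_cases hp0 : p = 0
    · rw [hp0, Polynomial.degree_zero]
      exact WithBot.bot_lt_coe _
    have hle : (p.natDegree : ℤ) ≤ e := by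
      rw [← dr_natDegree_le_iff x hx hp0]
      intro v hv
      have h := hinf v hv
      have hpv := dr_ord_aeval_of_pole v hv hp0
      have hne : aeval x p * x ^ (-e) ≠ 0 := mul_ne_zero hpv.1 (zpow_ne_zero _ hx0)
      rw [hw_mem_iff_ord_nonneg v hne, v.ord_mul hpv.1 (zpow_ne_zero _ hx0), v.ord_zpow] at h
      linarith
    rw [Polynomial.degree_eq_natDegree hp0]
    have : p.natDegree < (e + 1).toNat := by omega
    exact_mod_cast this

end places

end Fermat.Agent.S20
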