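/-
M3 Part B (S20), block (L-alg): dimension counts for a reduced basis `b` of `F` over `K(x)`
(`hb : dw_Reduced x b`, exponents `a i = dw_deg K x (b i)`).

* `dd_finrank_graded`: the graded count,
* `dw_finrank_inf`  (D1): `dim_K (B ∩ t^(-r) B_∞) = ∑ (r - a i + 1)`,
* `dw_sup_eq_top`   (D2): `B + t^(-r) B_∞ = F`,
* the trace-dual basis `dd_dualBasis x b` and the coordinate criteria for the trace duals
  `B^∨`, `t^m B_∞^∨` (`dd_dual_r1`, `dd_dual_r2`), `B ⊆ B^∨`, `t^m B_∞ ⊆ t^m B_∞^∨`,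
* `dd_finrank_dual` (D3, unfolded): `dim_K (B^∨ ∩ t^(-r) B_∞^∨) = ∑ (r + a i + 1)`.
-/
import Mathlib
import Fermat.Agent.S20.Reduced.Minima
import Fermat.Agent.S20.Reduced.RatFunc

set_option autoImplicit false

namespace Fermat.Agent.S20

open AlgebraicCurve IntermediateField Polynomial Module
open Fermat.Agent.S24

universe u v
variable {K : Type u} {F : Type v} [Field K] [Field F] [Algebra K F]

/-! ### the graded count -/

theorem dr_polyLT_le_adjoin (x : F) (m : ℕ) {c : F} (hc : c ∈ dr_polyLT (K := K) x m) :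
    c ∈ K⟮x⟯ := by
  obtain ⟨p, -, rfl⟩ := (dr_mem_polyLT_iff x m c).mp hc
  exact (IntermediateField.mem_adjoin_simple_iff K _).mpr ⟨p, 1, by simp⟩

/-- **graded count**: if membership in a `K`-subspace `W` of `F` means that the `i`-th coordinate
with respect to a `K(x)`-basis is a polynomial of degree `< m i`, then `dim_K W = ∑ m i`. -/
theorem dd_finrank_graded {x : F} (hx : Transcendental K x) {ι : Type*} [Fintype ι]
    (b : Basis ι K⟮x⟯ F) (m : ι → ℕ) (W : Submodule K F)
    (hW : ∀ f : F, f ∈ W ↔ ∀ i, ((b.repr f i : K⟮x⟯) : F) ∈ dr_polyLT (K := K) x (m i)) :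
    FiniteDimensional K W ∧ Module.finrank K W = ∑ i, m i := by
  classical
  let φ : W →ₗ[K] ((i : ι) → dr_polyLT (K := K) x (m i)) :=
    { toFun := fun f i => ⟨((b.repr (f : F) i : K⟮x⟯) : F), (hW f).mp f.2 i⟩
      map_add' := by
        intro f g
        ext i
        simp
      map_smul' := by
        intro c f
        ext i
        have h1 : c • (f : F) = (algebraMap K K⟮x⟯ c) • (f : F) := by
          rw [algebraMap_smul]
        simp only [Submodule.coe_smul_of_tower, RingHom.id_apply, Pi.smul_apply]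
        rw [h1, map_smul]
        simp only [Finsupp.coe_smul, Pi.smul_apply, smul_eq_mul, IntermediateField.coe_mul]
        rw [Algebra.smul_def]
        rfl }
  have hinj : Function.Injective φ := by
    intro f g hfg
    apply Subtype.ext
    apply b.repr.injective
    ext i
    have := congrArg (fun c => ((c i : dr_polyLT (K := K) x (m i)) : F)) hfg
    exact this
  have hsurj : Function.Surjective φ := by
    intro c
    let cc : ι → K⟮x⟯ := fun i => ⟨(c i : F), dr_polyLT_le_adjoin x (m i) (c i).2⟩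
    have hmem : (∑ i, cc i • b i) ∈ W := by
      rw [hW]
      intro i
      rw [b.repr_sum_self]
      exact (c i).2
    refine ⟨⟨_, hmem⟩, ?_⟩
    ext i
    show ((b.repr (∑ j, cc j • b j) i : K⟮x⟯) : F) = (c i : F)
    rw [b.repr_sum_self]
  let e : W ≃ₗ[K] ((i : ι) → dr_polyLT (K := K) x (m i)) :=
    LinearEquiv.ofBijective φ ⟨hinj, hsurj⟩
  refine ⟨Module.Finite.equiv e.symm, ?_⟩
  rw [e.finrank_eq, Module.finrank_pi_fintype]
  exact Finset.sum_congr rfl fun i _ => dr_finrank_polyLT hx (m i)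

section count

variable [IsAlgClosed K] [CharZero K] {x : F} (hx : Transcendental K x)
  [FiniteDimensional K⟮x⟯ F]

include hx in
/-- polynomials of degree `< N` in terms of the lattices `dw_B`, `dw_Binf` -/
theorem dd_mem_polyLT_iff {c : F} (hc : c ∈ K⟮x⟯) (N : ℕ) :
    c ∈ dr_polyLT (K := K) x N ↔ c ∈ dw_B K x ∧ c ∈ dw_Binf K x (1 - (N : ℤ)) := by
  rw [dw_mem_B_inter_Binf_iff hx hc N, dr_mem_polyLT_iff]
  constructor
  · rintro ⟨p, hp, rfl⟩
    exact ⟨p, Polynomial.mem_degreeLT.mpr hp, rfl⟩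
  · rintro ⟨p, hp, rfl⟩
    exact ⟨p, Polynomial.mem_degreeLT.mp hp, rfl⟩

include hx in
/-- the count behind `dw_finrank_inf` and its dual version: coordinates with respect to an
arbitrary basis `b'`, exponents `a'` -/
theorem dd_finrank_of {ι : Type*} [Fintype ι] (b' : Basis ι K⟮x⟯ F) (a' : ι → ℤ) (r : ℤ)
    (hr : ∀ i, a' i ≤ r + 1) (W : Submodule K F)
    (hW : ∀ f : F, f ∈ W ↔ (∀ i, ((b'.repr f i : K⟮x⟯) : F) ∈ dw_B K x) ∧
      (∀ i, ((b'.repr f i : K⟮x⟯) : F) ∈ dw_Binf K x (-r + a' i))) :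
    FiniteDimensional K W ∧ (Module.finrank K W : ℤ) = ∑ i, (r - a' i + 1) := by
  have h := dd_finrank_graded hx b' (fun i => (r - a' i + 1).toNat) W fun f => by
    rw [hW]
    have key : ∀ i, ((b'.repr f i : K⟮x⟯) : F) ∈ dr_polyLT (K := K) x (r - a' i + 1).toNat ↔
        ((b'.repr f i : K⟮x⟯) : F) ∈ dw_B K x ∧
        ((b'.repr f i : K⟮x⟯) : F) ∈ dw_Binf K x (-r + a' i) := by
      intro i
      rw [dd_mem_polyLT_iff hx (b'.repr f i).2]
      have : (1 : ℤ) - ((r - a' i + 1).toNat : ℤ) = -r + a' i := by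
        have := hr i
        omega
      rw [this]
    constructor
    · rintro ⟨h1, h2⟩ i
      exact (key i).mpr ⟨h1 i, h2 i⟩
    · intro h
      exact ⟨fun i => ((key i).mp (h i)).1, fun i => ((key i).mp (h i)).2⟩
  refine ⟨h.1, ?_⟩
  rw [h.2]
  push_cast
  refine Finset.sum_congr rfl fun i _ => ?_
  have := hr i
  omega

variable {n : ℕ} {b : Basis (Fin n) K⟮x⟯ F} (hb : dw_Reduced x b)

include hx hb in
/-- **(D1)** `dim_K (B ∩ t^(-r) B_∞) = ∑ (r - a i + 1)` -/
theorem dw_finrank_inf (r : ℤ) (hr : ∀ i, dw_deg K x (b i) ≤ r + 1) :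
    FiniteDimensional K ↥(Subalgebra.toSubmodule (dw_B K x) ⊓ dw_Binf K x (-r)) ∧
      (Module.finrank K ↥(Subalgebra.toSubmodule (dw_B K x) ⊓ dw_Binf K x (-r)) : ℤ)
        = ∑ i, (r - dw_deg K x (b i) + 1) := by
  refine dd_finrank_of hx b (fun i => dw_deg K x (b i)) r hr _ fun f => ?_
  rw [Submodule.mem_inf, Subalgebra.mem_toSubmodule, hb.mem_B_iff hx, hb.mem_Binf_iff hx]

include hx hb in
/-- **(D2)** `B + t^(-r) B_∞ = F` as soon as `a i ≤ r + 1` for all `i` -/
theorem dw_sup_eq_top (r : ℤ) (hr : ∀ i, dw_deg K x (b i) ≤ r + 1) :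
    Subalgebra.toSubmodule (dw_B K x) ⊔ dw_Binf K x (-r) = ⊤ := by
  rw [eq_top_iff]
  intro f _
  choose p hp using fun i => dw_exists_poly_sub_mem' hx (b.repr f i).2
  have hdec : f = ∑ i, aeval x (p i) * b i + ∑ i, (((b.repr f i : K⟮x⟯) : F) - aeval x (p i)) * b i := by
    rw [← Finset.sum_add_distrib]
    conv_lhs => rw [← dw_sum_repr b f]
    refine Finset.sum_congr rfl fun i _ => ?_
    ring
  rw [hdec]
  refine Submodule.add_mem_sup ?_ ?_
  · rw [Subalgebra.mem_toSubmodule]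
    exact (dw_B K x).sum_mem fun i _ => (dw_B K x).mul_mem (dw_aeval_mem_B (p i)) (hb.mem i)
  · refine (dw_Binf K x (-r)).sum_mem fun i _ => ?_
    have h1 : ((b.repr f i : K⟮x⟯) : F) - aeval x (p i) ∈ dw_Binf K x (-r + dw_deg K x (b i)) :=
      dw_Binf_anti x (by have := hr i; omega) (hp i)
    have := dw_mul_mem_Binf (dw_x_ne_zero hx) h1 (dw_basis_mem_Binf hx b i)
    rwa [add_neg_cancel_right] at this

end count

end Fermat.Agent.S20
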