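import Mathlib
import Fermat.Agent.S20.Reduced.Minima
import Fermat.Agent.S20.Count.DualDefs

/-!
# S20 / reduced bases: the trace-dual lattices

`dw_Bdual K x` and `dw_Binfdual K x m` are the duals of `dw_B K x` and `dw_Binf K x m` under the
trace form of `F / K(x)`.  With respect to the trace-dual basis of a reduced basis, membership in
them is read off coordinatewise.
-/

set_option autoImplicit false

namespace Fermat.Agent.S20

open AlgebraicCurve IntermediateField Polynomial Module Fermat.Agent.S24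

universe u v
variable {K : Type u} {F : Type v} [Field K] [Field F] [Algebra K F]

theorem dwd_tr_add (x f g : F) : dw_tr K x (f + g) = dw_tr K x f + dw_tr K x g :=
  map_add _ _ _

theorem dwd_tr_zero (x : F) : dw_tr K x 0 = 0 :=
  map_zero _

theorem dwd_tr_sum {ι : Type*} (x : F) (s : Finset ι) (f : ι → F) :
    dw_tr K x (∑ i ∈ s, f i) = ∑ i ∈ s, dw_tr K x (f i) :=
  map_sum _ _ _

theorem dwd_tr_mul_of_mem {x c : F} (hc : c ∈ K⟮x⟯) (f : F) :
    dw_tr K x (c * f) = c * dw_tr K x f := by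
  have : c * f = (⟨c, hc⟩ : K⟮x⟯) • f := rfl
  rw [dw_tr_apply, dw_tr_apply, this, map_smul]
  rfl

theorem dwd_tr_algebraMap_mul (x : F) (a : K) (f : F) :
    dw_tr K x (algebraMap K F a * f) = algebraMap K F a * dw_tr K x f :=
  dwd_tr_mul_of_mem (IntermediateField.algebraMap_mem _ a) f

theorem dwd_tr_smul (x : F) (a : K) (f : F) : dw_tr K x (a • f) = a • dw_tr K x f :=
  map_smul _ _ _

/-- The trace dual of `dw_B`. -/
def dw_Bdual (K : Type u) {F : Type v} [Field K] [Field F] [Algebra K F] (x : F) :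
    Submodule K F where
  carrier := {h | ∀ f ∈ dw_B K x, dw_tr K x (h * f) ∈ dw_B K x}
  add_mem' := fun ha hb f hf => by
    rw [add_mul, dwd_tr_add]; exact (dw_B K x).add_mem (ha f hf) (hb f hf)
  zero_mem' := fun f _ => by
    rw [zero_mul, dwd_tr_zero]; exact (dw_B K x).zero_mem
  smul_mem' := fun a h hh f hf => by
    rw [smul_mul_assoc, dwd_tr_smul]
    exact (dw_B K x).smul_mem (hh f hf) a

theorem dw_mem_Bdual {x h : F} :
    h ∈ dw_Bdual K x ↔ ∀ f ∈ dw_B K x, dw_tr K x (h * f) ∈ dw_B K x := Iff.rfl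

/-- The trace dual of `dw_Binf K x m`. -/
def dw_Binfdual (K : Type u) {F : Type v} [Field K] [Field F] [Algebra K F] (x : F) (m : ℤ) :
    Submodule K F where
  carrier := {h | ∀ f ∈ dw_Binf K x m, dw_tr K x (h * f) ∈ dw_Binf K x 0}
  add_mem' := fun ha hb f hf => by
    rw [add_mul, dwd_tr_add]; exact (dw_Binf K x 0).add_mem (ha f hf) (hb f hf)
  zero_mem' := fun f _ => by
    rw [zero_mul, dwd_tr_zero]; exact (dw_Binf K x 0).zero_mem
  smul_mem' := fun a h hh f hf => by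
    rw [smul_mul_assoc, dwd_tr_smul]
    exact (dw_Binf K x 0).smul_mem a (hh f hf)

theorem dw_mem_Binfdual {x h : F} {m : ℤ} :
    h ∈ dw_Binfdual K x m ↔ ∀ f ∈ dw_Binf K x m, dw_tr K x (h * f) ∈ dw_Binf K x 0 := Iff.rfl

/-- The trace is the sum of the diagonal coordinates. -/
theorem dwd_tr_eq_sum {x : F} [FiniteDimensional K⟮x⟯ F] {n : ℕ} (b : Basis (Fin n) K⟮x⟯ F)
    (f : F) : dw_tr K x f = ∑ j, ((b.repr (f * b j) j : K⟮x⟯) : F) := by
  rw [dw_tr_apply, Algebra.trace_eq_matrix_trace b, Matrix.trace]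
  push_cast
  refine Finset.sum_congr rfl fun j _ => ?_
  rw [Matrix.diag_apply, Algebra.leftMulMatrix_eq_repr_mul]

section
variable [IsAlgClosed K] [CharZero K] {x : F} (hx : Transcendental K x) [FiniteDimensional K⟮x⟯ F]
variable {n : ℕ} {b : Basis (Fin n) K⟮x⟯ F} (hb : dw_Reduced x b)

include hx hb in
theorem dw_Reduced.tr_mem_B {f : F} (hf : f ∈ dw_B K x) : dw_tr K x f ∈ dw_B K x := by
  rw [dwd_tr_eq_sum b]
  exact (dw_B K x).sum_mem fun j _ =>
    hb.repr_mem_B hx ((dw_B K x).mul_mem hf (hb.mem j)) j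

include hx hb in
theorem dw_Reduced.tr_mem_Binf {f : F} (hf : f ∈ dw_Binf K x 0) :
    dw_tr K x f ∈ dw_Binf K x 0 := by
  rw [dwd_tr_eq_sum b]
  refine (dw_Binf K x 0).sum_mem fun j _ => ?_
  have h1 := dw_mul_mem_Binf (dw_x_ne_zero hx) hf (dw_basis_mem_Binf hx b j)
  have h2 := hb.repr_mem_Binf hx h1 j
  rwa [zero_add, neg_add_cancel] at h2

include hx hb in
theorem dw_Reduced.B_le_Bdual : (dw_B K x).toSubmodule ≤ dw_Bdual K x := by
  intro h hh f hf
  exact hb.tr_mem_B hx ((dw_B K x).mul_mem hh hf)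

include hx hb in
theorem dw_Reduced.Binf_le_Binfdual (m : ℤ) : dw_Binf K x (-m) ≤ dw_Binfdual K x m := by
  intro h hh f hf
  have := dw_mul_mem_Binf (dw_x_ne_zero hx) hh hf
  rw [neg_add_cancel] at this
  exact hb.tr_mem_Binf hx this

include hx hb in
/-- **(R1\*)** -/
theorem dw_Reduced.mem_Bdual_iff {h : F} :
    h ∈ dw_Bdual K x ↔ ∀ i, dw_tr K x (h * b i) ∈ dw_B K x := by
  refine ⟨fun hh i => hh _ (hb.mem i), fun H f hf => ?_⟩
  rw [← dw_sum_repr b f, Finset.mul_sum, dwd_tr_sum]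
  refine (dw_B K x).sum_mem fun i _ => ?_
  rw [mul_left_comm, dwd_tr_mul_of_mem (b.repr f i).2]
  exact (dw_B K x).mul_mem (hb.repr_mem_B hx hf i) (H i)

include hx hb in
/-- **(R2\*)** -/
theorem dw_Reduced.mem_Binfdual_iff {h : F} {m : ℤ} :
    h ∈ dw_Binfdual K x m ↔
      ∀ i, dw_tr K x (h * b i) ∈ dw_Binf K x (-m - dw_deg K x (b i)) := by
  have hx0 := dw_x_ne_zero hx
  constructor
  · intro hh i
    set j : ℤ := -m - dw_deg K x (b i) with hj
    have h1 : b i * x ^ j ∈ dw_Binf K x m := by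
      rw [dw_mul_zpow_mem_Binf hx0]
      convert dw_basis_mem_Binf hx b i using 2
      rw [hj]; ring
    have h2 := hh _ h1
    have hxj : x ^ j ∈ K⟮x⟯ := zpow_mem (mem_adjoin_simple_self K x) j
    have h3 : h * (b i * x ^ j) = x ^ j * (h * b i) := by ring
    rw [h3, dwd_tr_mul_of_mem hxj, mul_comm, dw_mul_zpow_mem_Binf hx0, zero_add] at h2
    exact h2
  · intro H f hf
    rw [← dw_sum_repr b f, Finset.mul_sum, dwd_tr_sum]
    refine (dw_Binf K x 0).sum_mem fun i _ => ?_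
    rw [mul_left_comm, dwd_tr_mul_of_mem (b.repr f i).2]
    have := dw_mul_mem_Binf hx0 (hb.repr_mem_Binf hx hf i) (H i)
    convert this using 2
    ring

end

section
variable [CharZero K] {x : F} [FiniteDimensional K⟮x⟯ F] {n : ℕ}

/-- The trace-dual basis. -/
noncomputable def dwd_dualBasis (b : Basis (Fin n) K⟮x⟯ F) : Basis (Fin n) K⟮x⟯ F :=
  (Algebra.traceForm K⟮x⟯ F).dualBasis (traceForm_nondegenerate K⟮x⟯ F) b

theorem dwd_dualBasis_repr (b : Basis (Fin n) K⟮x⟯ F) (h : F) (i : Fin n) :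
    (((dwd_dualBasis b).repr h i : K⟮x⟯) : F) = dw_tr K x (h * b i) := by
  rw [dwd_dualBasis, LinearMap.BilinForm.dualBasis_repr_apply, Algebra.traceForm_apply]
  rfl

theorem dwd_tr_dualBasis_mul (b : Basis (Fin n) K⟮x⟯ F) (i j : Fin n) :
    dw_tr K x (dwd_dualBasis b i * b j) = if j = i then 1 else 0 := by
  rw [dw_tr_apply, ← Algebra.traceForm_apply, dwd_dualBasis,
    LinearMap.BilinForm.apply_dualBasis_left]
  split_ifs <;> simp

end

end Fermat.Agent.S20
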