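/-
M3 Part B (S20), block (L-alg): the trace-dual basis of a reduced basis and the dual dimension
count.

`b` is a reduced basis of `F` over `K(x)` (`hb : dw_Reduced x b`, exponents
`a i = dw_deg K x (b i)`), `b^*` its dual basis with respect to the trace form.

* `dw_mem_Bd_iff`    : `h ∈ B^∨ ⇔ ∀ i, Tr (h b_i) ∈ B`,
* `dw_mem_Binfd_iff` : `h ∈ t^m B_∞^∨ ⇔ ∀ i, Tr (h b_i) ∈ t^(m - a_i) B_∞`,
* `dw_B_le_Bd`, `dw_Binf_le_Binfd` : `B ⊆ B^∨`, `t^m B_∞ ⊆ t^m B_∞^∨`,
* `dw_finrank_inf_dual` (D3): `dim_K (B^∨ ∩ t^(-r) B_∞^∨) = ∑ (r + a_i + 1)`.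
-/
import Mathlib
import Fermat.Agent.S20.Reduced.Dim
import Fermat.Agent.S20.Count.DualDefs

set_option autoImplicit false

namespace Fermat.Agent.S20

open AlgebraicCurve IntermediateField Polynomial Module
open Fermat.Agent.S24

universe u v
variable {K : Type u} {F : Type v} [Field K] [Field F] [Algebra K F]

/-! ### the trace-dual basis -/

section basis

variable [CharZero K]

/-- the trace-dual basis of a `K(x)`-basis of `F` -/
noncomputable def dd_dualBasis (x : F) [FiniteDimensional K⟮x⟯ F] {ι : Type*} [Finite ι]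
    [DecidableEq ι] (b : Basis ι K⟮x⟯ F) : Basis ι K⟮x⟯ F :=
  (Algebra.traceForm K⟮x⟯ F).dualBasis (traceForm_nondegenerate K⟮x⟯ F) b

theorem dd_dualBasis_repr (x : F) [FiniteDimensional K⟮x⟯ F] {ι : Type*} [Finite ι]
    [DecidableEq ι] (b : Basis ι K⟮x⟯ F) (h : F) (i : ι) :
    (dd_dualBasis x b).repr h i = Algebra.trace K⟮x⟯ F (h * b i) := by
  rw [dd_dualBasis, LinearMap.BilinForm.dualBasis_repr_apply, Algebra.traceForm_apply]

theorem dd_dualBasis_repr_coe (x : F) [FiniteDimensional K⟮x⟯ F] {ι : Type*} [Finite ι]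
    [DecidableEq ι] (b : Basis ι K⟮x⟯ F) (h : F) (i : ι) :
    (((dd_dualBasis x b).repr h i : K⟮x⟯) : F) = dw_tr K x (h * b i) := by
  rw [dd_dualBasis_repr, dw_tr_apply]

/-- the defining property of the dual basis -/
theorem dd_trace_dualBasis_mul (x : F) [FiniteDimensional K⟮x⟯ F] {ι : Type*} [Finite ι]
    [DecidableEq ι] (b : Basis ι K⟮x⟯ F) (i j : ι) :
    Algebra.trace K⟮x⟯ F (dd_dualBasis x b i * b j) = if i = j then 1 else 0 := by
  have := LinearMap.BilinForm.apply_dualBasis_left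
    (traceForm_nondegenerate K⟮x⟯ F) b i j
  rw [Algebra.traceForm_apply] at this
  rw [dd_dualBasis, this]
  simp only [eq_comm]

end basis

/-! ### the trace in coordinates -/

/-- `Tr` is `K(x)`-linear -/
theorem dw_tr_smul (x : F) (c : K⟮x⟯) (g : F) : dw_tr K x ((c : F) * g) = (c : F) * dw_tr K x g := by
  rw [dw_tr_apply, dw_tr_apply, ← dw_smul_eq_mul, map_smul, smul_eq_mul, IntermediateField.coe_mul]

/-- the trace of `h * f` in coordinates -/
theorem dw_tr_mul_eq_sum (x : F) {ι : Type*} [Fintype ι] (b : Basis ι K⟮x⟯ F) (h f : F) :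
    dw_tr K x (h * f) = ∑ j, ((b.repr f j : K⟮x⟯) : F) * dw_tr K x (h * b j) := by
  conv_lhs => rw [← b.sum_repr f, Finset.mul_sum, map_sum]
  refine Finset.sum_congr rfl fun j _ => ?_
  rw [dw_smul_eq_mul, ← dw_tr_smul]
  congr 1
  ring

/-- the trace as the sum of the diagonal coordinates -/
theorem dw_tr_eq_sum (x : F) {ι : Type*} [Fintype ι] [DecidableEq ι] (b : Basis ι K⟮x⟯ F)
    (f : F) : dw_tr K x f = ∑ j, ((b.repr (f * b j) j : K⟮x⟯) : F) := by
  rw [dw_tr_apply, Algebra.trace_eq_matrix_trace b, Matrix.trace, IntermediateField.coe_sum]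
  refine Finset.sum_congr rfl fun j _ => ?_
  rw [Matrix.diag_apply, Algebra.leftMulMatrix_eq_repr_mul]

section dual

variable [IsAlgClosed K] [CharZero K] {x : F} (hx : Transcendental K x)
  [FiniteDimensional K⟮x⟯ F] {n : ℕ} {b : Basis (Fin n) K⟮x⟯ F} (hb : dw_Reduced x b)

include hx hb in
/-- traces of functions regular at the finite places are regular at the finite places -/
theorem dw_tr_mem_B {f : F} (hf : f ∈ dw_B K x) : dw_tr K x f ∈ dw_B K x := by
  rw [dw_tr_eq_sum x b f]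
  exact (dw_B K x).sum_mem fun j _ =>
    hb.repr_mem_B hx ((dw_B K x).mul_mem hf (hb.mem j)) j

include hx hb in
/-- traces of elements of `t^m B_∞` lie in `t^m B_∞` -/
theorem dw_tr_mem_Binf {m : ℤ} {f : F} (hf : f ∈ dw_Binf K x m) : dw_tr K x f ∈ dw_Binf K x m := by
  rw [dw_tr_eq_sum x b f]
  refine (dw_Binf K x m).sum_mem fun j _ => ?_
  have h1 := dw_mul_mem_Binf (dw_x_ne_zero hx) hf (dw_basis_mem_Binf hx b j)
  have h2 := hb.repr_mem_Binf hx h1 j
  have he : m + -dw_deg K x (b j) + dw_deg K x (b j) = m := by ring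
  rwa [he] at h2

include hx hb in
/-- `B ⊆ B^∨` -/
theorem dw_B_le_Bd : Subalgebra.toSubmodule (dw_B K x) ≤ dw_Bd K x := fun _ hh _ hf =>
  dw_tr_mem_B hx hb ((dw_B K x).mul_mem hh hf)

include hx hb in
/-- `t^m B_∞ ⊆ t^m B_∞^∨` -/
theorem dw_Binf_le_Binfd (m : ℤ) : dw_Binf K x m ≤ dw_Binfd K x m := fun h hh f hf => by
  have := dw_tr_mem_Binf hx hb (dw_mul_mem_Binf (dw_x_ne_zero hx) hh hf)
  rwa [add_zero] at this

include hx hb in
/-- **(R1) for the dual basis** -/
theorem dw_mem_Bd_iff {h : F} :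
    h ∈ dw_Bd K x ↔ ∀ i, dw_tr K x (h * b i) ∈ dw_B K x := by
  constructor
  · intro hh i
    exact hh (b i) (hb.mem i)
  · intro hh f hf
    rw [dw_tr_mul_eq_sum x b h f]
    exact (dw_B K x).sum_mem fun j _ => (dw_B K x).mul_mem (hb.repr_mem_B hx hf j) (hh j)

include hx hb in
/-- **(R2) for the dual basis**, with exponents `- a i` -/
theorem dw_mem_Binfd_iff {m : ℤ} {h : F} :
    h ∈ dw_Binfd K x m ↔ ∀ i, dw_tr K x (h * b i) ∈ dw_Binf K x (m - dw_deg K x (b i)) := by
  have hx0 := dw_x_ne_zero hx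
  constructor
  · intro hh i
    -- test function `b i * x ^ (-a i)`
    have hf : b i * x ^ (-dw_deg K x (b i)) ∈ dw_Binf K x 0 := by
      rw [dw_mul_zpow_mem_Binf hx0, zero_add]
      exact dw_basis_mem_Binf hx b i
    have h1 := hh _ hf
    let c : K⟮x⟯ := (AdjoinSimple.gen K x) ^ (-dw_deg K x (b i))
    have hc : (c : F) = x ^ (-dw_deg K x (b i)) := by
      have := map_zpow₀ (algebraMap K⟮x⟯ F) (AdjoinSimple.gen K x) (-dw_deg K x (b i))
      rw [IntermediateField.algebraMap_apply, IntermediateField.algebraMap_apply,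
        AdjoinSimple.coe_gen] at this
      exact this
    have h2 : h * (b i * x ^ (-dw_deg K x (b i))) = (c : F) * (h * b i) := by
      rw [hc]
      ring
    rw [h2, dw_tr_smul, hc, mul_comm, dw_mul_zpow_mem_Binf hx0] at h1
    rwa [sub_eq_add_neg]
  · intro hh f hf
    rw [dw_tr_mul_eq_sum x b h f]
    refine (dw_Binf K x m).sum_mem fun j _ => ?_
    have h1 := hb.repr_mem_Binf hx hf j
    have := dw_mul_mem_Binf hx0 h1 (hh j)
    have he : 0 + dw_deg K x (b j) + (m - dw_deg K x (b j)) = m := by ring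
    rwa [he] at this

include hx hb in
/-- **(D3)** `dim_K (B^∨ ∩ t^(-r) B_∞^∨) = ∑ (r + a i + 1)` -/
theorem dw_finrank_inf_dual (r : ℤ) (hr : 0 ≤ r + 1) :
    FiniteDimensional K ↥(dw_Bd K x ⊓ dw_Binfd K x (-r)) ∧
      (Module.finrank K ↥(dw_Bd K x ⊓ dw_Binfd K x (-r)) : ℤ)
        = ∑ i, (r + dw_deg K x (b i) + 1) := by
  have h := dd_finrank_of hx (dd_dualBasis x b) (fun i => -dw_deg K x (b i)) r
    (fun i => by have := hb.deg_nonneg hx i; omega) (dw_Bd K x ⊓ dw_Binfd K x (-r)) fun f => by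
      rw [Submodule.mem_inf, dw_mem_Bd_iff hx hb, dw_mem_Binfd_iff hx hb]
      simp only [dd_dualBasis_repr_coe, sub_eq_add_neg]
  refine ⟨h.1, ?_⟩
  rw [h.2]
  refine Finset.sum_congr rfl fun i _ => ?_
  ring

end dual

end Fermat.Agent.S20
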