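/-
S20 helper library (helper3), block (DW-a): Hadamard-type estimate for determinants of matrices of
Laurent series whose rows vanish below prescribed exponents, with the corner coefficient.
-/
import Mathlib
import Fermat.Agent.S24.PlacesOrbits.Vanish

set_option autoImplicit false

namespace Fermat.Agent.S20

open Fermat.Agent.S24 HahnSeries

variable {R : Type*} [CommRing R]

/-- Products: vanishing exponents add up. -/
theorem dw_VB_prod {ι : Type*} (s : Finset ι) (f : ι → HahnSeries ℤ R) (a : ι → ℤ)
    (h : ∀ i ∈ s, po_VB (f i) (a i)) :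
    po_VB (∏ i ∈ s, f i) (∑ i ∈ s, a i) ∧
      (∏ i ∈ s, f i).coeff (∑ i ∈ s, a i) = ∏ i ∈ s, (f i).coeff (a i) := by
  classical
  induction s using Finset.induction_on with
  | empty =>
    simp only [Finset.prod_empty, Finset.sum_empty]
    exact ⟨po_VB_one, by simp [HahnSeries.coeff_one]⟩
  | insert x s hx ih =>
    have ih' := ih (fun i hi => h i (Finset.mem_insert_of_mem hi))
    have hxv := h x (Finset.mem_insert_self x s)
    rw [Finset.prod_insert hx, Finset.sum_insert hx, Finset.prod_insert hx]
    exact ⟨hxv.mul ih'.1, by rw [po_coeff_mul_corner hxv ih'.1, ih'.2]⟩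

theorem dw_VB_zsmul_units (u : ℤˣ) {x : HahnSeries ℤ R} {n : ℤ} (hx : po_VB x n) :
    po_VB (u • x) n := by
  rcases Int.units_eq_one_or u with rfl | rfl
  · simpa using hx
  · simpa using hx.neg

theorem dw_coeff_zsmul_units (u : ℤˣ) (x : HahnSeries ℤ R) (n : ℤ) :
    (u • x).coeff n = u • x.coeff n := by
  rcases Int.units_eq_one_or u with rfl | rfl
  · simp
  · simp

variable {ι : Type*} [Fintype ι] [DecidableEq ι]

/-- **Hadamard estimate**: if row `i` of `M` vanishes below `a i`, then `det M` vanishes below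
`∑ a i`, and its coefficient there is the determinant of the matrix of corner coefficients. -/
theorem dw_det_VB (M : Matrix ι ι (HahnSeries ℤ R)) (a : ι → ℤ)
    (h : ∀ i j, po_VB (M i j) (a i)) :
    po_VB M.det (∑ i, a i) ∧
      M.det.coeff (∑ i, a i) = (Matrix.of fun i j => (M i j).coeff (a i)).det := by
  have hterm : ∀ σ : Equiv.Perm ι,
      po_VB (∏ i, M (σ i) i) (∑ i, a i) ∧
        (∏ i, M (σ i) i).coeff (∑ i, a i) = ∏ i, (M (σ i) i).coeff (a (σ i)) := by
    intro σ
    have := dw_VB_prod Finset.univ (fun i => M (σ i) i) (fun i => a (σ i)) (fun i _ => h (σ i) i)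
    have hsum : ∑ i, a (σ i) = ∑ i, a i := Equiv.sum_comp σ a
    rw [hsum] at this
    exact this
  constructor
  · rw [Matrix.det_apply]
    exact po_VB.sum _ _ fun σ _ => dw_VB_zsmul_units _ (hterm σ).1
  · rw [Matrix.det_apply, Matrix.det_apply, HahnSeries.coeff_sum]
    refine Finset.sum_congr rfl fun σ _ => ?_
    rw [dw_coeff_zsmul_units, (hterm σ).2]
    rfl

end Fermat.Agent.S20
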