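/-
S20 helper library (helper3), block (DW-a): REDUCED BASES over `K[x] ⊆ K((t))`, `x = t⁻¹`
(Dedekind–Weber / Mahler lattice reduction).

A square matrix `b` of Laurent series in `t` is *reduced with exponents `a`* if row `i` vanishes
below `a i` and the matrix of corner coefficients `coeff (a i) (b i j)` is invertible over `K`.

* `dw_exists_reduced`: every matrix with non-zero determinant can be brought into reduced form by
  left multiplication with a matrix `U ∈ GL_n(K[x])`.
* `dw_reduced_VB_iff` (orthogonality): for a reduced `b`, a combination `∑ c i * b i` vanishes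
  below `m` iff every `c i` vanishes below `m - a i`.
-/
import Mathlib
import Fermat.Agent.S20.Reduced.Hadamard

set_option autoImplicit false

namespace Fermat.Agent.S20

open Fermat.Agent.S24 HahnSeries Polynomial Matrix

variable {K : Type*} [Field K]

/-- `x = t⁻¹` in `K((t))`. -/
noncomputable def dw_x : LaurentSeries K := HahnSeries.single (-1 : ℤ) (1 : K)

/-- Evaluation of polynomials at `x = t⁻¹`. -/
noncomputable def dw_ev : K[X] →ₐ[K] LaurentSeries K := Polynomial.aeval dw_x

theorem dw_ev_C (c : K) : dw_ev (C c) = HahnSeries.C c := by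
  rw [dw_ev, Polynomial.aeval_C, HahnSeries.algebraMap_apply', PowerSeries.algebraMap_apply,
    HahnSeries.ofPowerSeries_C]
  rfl

theorem dw_ev_monomial (c : K) (k : ℕ) :
    dw_ev (C c * X ^ k) = HahnSeries.single (-(k : ℤ)) c := by
  rw [map_mul, dw_ev_C, map_pow]
  have hX : dw_ev (X : K[X]) = dw_x := by rw [dw_ev, Polynomial.aeval_X]
  rw [hX, dw_x, HahnSeries.single_pow, one_pow, HahnSeries.C_apply,
    HahnSeries.single_mul_single]
  congr 1
  · simp
  · simp

theorem po_VB_single (e : ℤ) (r : K) : po_VB (HahnSeries.single e r) e := fun i hi => by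
  rw [HahnSeries.coeff_single_of_ne (ne_of_lt hi)]

theorem po_VB_succ_of_coeff_eq_zero {x : LaurentSeries K} {n : ℤ} (h : po_VB x n)
    (h0 : x.coeff n = 0) : po_VB x (n + 1) := by
  intro i hi
  rcases (Int.lt_add_one_iff.mp hi).lt_or_eq with h1 | h1
  · exact h i h1
  · rw [h1, h0]

variable {ι : Type*} [Fintype ι] [DecidableEq ι]

/-- `b` is reduced with exponents `a`. -/
structure dw_IsReduced (b : Matrix ι ι (LaurentSeries K)) (a : ι → ℤ) : Prop where
  vb : ∀ i j, po_VB (b i j) (a i)
  det_ne : (Matrix.of fun i j => (b i j).coeff (a i)).det ≠ 0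

/-- A reduced matrix has non-zero determinant, of order `∑ a i`. -/
theorem dw_IsReduced.det_order {b : Matrix ι ι (LaurentSeries K)} {a : ι → ℤ}
    (h : dw_IsReduced b a) : b.det ≠ 0 ∧ b.det.order = ∑ i, a i := by
  have hH := dw_det_VB b a h.vb
  have hc : b.det.coeff (∑ i, a i) ≠ 0 := by rw [hH.2]; exact h.det_ne
  exact ⟨HahnSeries.ne_zero_of_coeff_ne_zero hc, po_order_eq_of_VB hH.1 hc⟩

/-- **Orthogonality** of a reduced basis. -/
theorem dw_reduced_VB_iff {b : Matrix ι ι (LaurentSeries K)} {a : ι → ℤ}
    (hb : dw_IsReduced b a) (c : ι → LaurentSeries K) (m : ℤ) :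
    (∀ j, po_VB (∑ i, c i * b i j) m) ↔ ∀ i, po_VB (c i) (m - a i) := by
  classical
  constructor
  · intro h
    by_contra hne
    push Not at hne
    obtain ⟨i₁, hi₁⟩ := hne
    -- the indices with `c i ≠ 0`
    set I : Finset ι := Finset.univ.filter (fun i => c i ≠ 0) with hI
    have hi₁0 : c i₁ ≠ 0 := by
      intro h0; apply hi₁; rw [h0]; exact po_VB_zero _
    have hIne : I.Nonempty := ⟨i₁, by simp [hI, hi₁0]⟩
    obtain ⟨i₂, hi₂I, hi₂min⟩ := Finset.exists_min_image I (fun i => (c i).order + a i) hIne
    set μ : ℤ := (c i₂).order + a i₂ with hμ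
    have hi₂0 : c i₂ ≠ 0 := by simpa [hI] using hi₂I
    -- `μ < m`
    have hμm : μ < m := by
      have h1 : μ ≤ (c i₁).order + a i₁ := hi₂min i₁ (by simp [hI, hi₁0])
      have h2 : (c i₁).order < m - a i₁ := by
        by_contra hge
        rw [not_lt] at hge
        exact hi₁ (po_VB_of_le_order hge)
      omega
    -- every `c i` vanishes below `μ - a i`
    have hcv : ∀ i, po_VB (c i) (μ - a i) := by
      intro i
      by_cases hi0 : c i = 0
      · rw [hi0]; exact po_VB_zero _
      · have := hi₂min i (by simp [hI, hi0])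
        apply po_VB_of_le_order
        omega
    -- coefficient at `μ` of the combination
    have hcoeff : ∀ j, (∑ i, c i * b i j).coeff μ
        = ∑ i, (c i).coeff (μ - a i) * (b i j).coeff (a i) := by
      intro j
      rw [HahnSeries.coeff_sum]
      refine Finset.sum_congr rfl fun i _ => ?_
      have := po_coeff_mul_corner (hcv i) (hb.vb i j)
      rwa [sub_add_cancel] at this
    have hzero : (fun i => (c i).coeff (μ - a i)) ᵥ*
        (Matrix.of fun i j => (b i j).coeff (a i)) = 0 := by
      ext j
      simp only [Matrix.vecMul, dotProduct, Matrix.of_apply, Pi.zero_apply]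
      rw [← hcoeff j]
      exact h j μ hμm
    have hγ := Matrix.eq_zero_of_vecMul_eq_zero hb.det_ne hzero
    have hγ2 : (c i₂).coeff (μ - a i₂) = 0 := congrFun hγ i₂
    have : μ - a i₂ = (c i₂).order := by omega
    rw [this] at hγ2
    exact (HahnSeries.coeff_order_eq_zero.not.mpr hi₂0) hγ2
  · intro h j
    apply po_VB.sum
    intro i _
    have := (h i).mul (hb.vb i j)
    rwa [sub_add_cancel] at this

/-- The elementary reduction step on the level of transformation matrices. -/
theorem dw_updateRow_map_mul (b : Matrix ι ι (LaurentSeries K)) (i₀ : ι) (p : ι → K[X]) :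
    ((1 : Matrix ι ι K[X]).updateRow i₀ p).map dw_ev * b
      = b.updateRow i₀ (fun j => ∑ l, dw_ev (p l) * b l j) := by
  rw [Matrix.map_updateRow, Matrix.map_one _ (map_zero _) (map_one _), Matrix.updateRow_mul,
    Matrix.one_mul]
  congr 1

theorem dw_det_updateRow_one (i₀ : ι) (p : ι → K[X]) :
    ((1 : Matrix ι ι K[X]).updateRow i₀ p).det = p i₀ := by
  have h := Matrix.det_updateRow_sum (1 : Matrix ι ι K[X]) i₀ p
  have hsum : (∑ k, p k • (1 : Matrix ι ι K[X]) k) = p := by
    ext j
    simp [Finset.sum_apply, Matrix.one_apply]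
  rw [hsum] at h
  rw [h]
  simp

end Fermat.Agent.S20
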