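/-
S20 helper library (helper3), block (DW-a): existence of reduced bases.
-/
import Mathlib
import Fermat.Agent.S20.Reduced.Basic

set_option autoImplicit false

namespace Fermat.Agent.S20

open Fermat.Agent.S24 HahnSeries Polynomial Matrix

variable {K : Type*} [Field K] {ι : Type*} [Fintype ι] [DecidableEq ι]

theorem dw_exists_reduced_aux (D : ℕ) :
    ∀ (b : Matrix ι ι (LaurentSeries K)) (a : ι → ℤ), b.det ≠ 0 →
      (∀ i j, po_VB (b i j) (a i)) → b.det.order - ∑ i, a i = D →
      ∃ (U : Matrix ι ι K[X]) (a' : ι → ℤ), IsUnit U.det ∧ dw_IsReduced (U.map dw_ev * b) a' := by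
  classical
  induction D with
  | zero =>
    intro b a hdet hvb hD
    refine ⟨1, a, by simp, ?_⟩
    rw [Matrix.map_one _ (map_zero _) (map_one _), Matrix.one_mul]
    refine ⟨hvb, ?_⟩
    have hH := dw_det_VB b a hvb
    rw [← hH.2]
    have : b.det.order = ∑ i, a i := by
      have : b.det.order - ∑ i, a i = 0 := by exact_mod_cast hD
      omega
    rw [← this]
    exact HahnSeries.coeff_order_eq_zero.not.mpr hdet
  | succ D ih =>
    intro b a hdet hvb hD
    have hH := dw_det_VB b a hvb
    set Lmat : Matrix ι ι K := Matrix.of fun i j => (b i j).coeff (a i) with hLmat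
    -- the corner determinant vanishes
    have hL0 : Lmat.det = 0 := by
      rw [← hH.2]
      apply HahnSeries.coeff_eq_zero_of_lt_order
      have : b.det.order - ∑ i, a i = ((D + 1 : ℕ) : ℤ) := hD
      push_cast at this
      omega
    obtain ⟨lam, hlam0, hlam⟩ := Matrix.exists_vecMul_eq_zero_iff.mpr hL0
    set I : Finset ι := Finset.univ.filter (fun i => lam i ≠ 0) with hI
    have hIne : I.Nonempty := by
      by_contra hemp
      rw [Finset.not_nonempty_iff_eq_empty] at hemp
      apply hlam0
      ext i
      show lam i = 0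
      by_contra hi
      have : i ∈ I := by simp [hI, hi]
      rw [hemp] at this
      exact absurd this (Finset.notMem_empty i)
    obtain ⟨i₀, hi₀I, hi₀min⟩ := Finset.exists_min_image I a hIne
    have hlam_i₀ : lam i₀ ≠ 0 := by simpa [hI] using hi₀I
    -- the polynomial row
    set p : ι → K[X] := fun l =>
      if lam l ≠ 0 then Polynomial.C (lam l) * X ^ (a l - a i₀).toNat else 0 with hp
    have hp_i₀ : p i₀ = Polynomial.C (lam i₀) := by
      simp only [hp, if_pos hlam_i₀, sub_self, Int.toNat_zero, pow_zero, mul_one]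
    set U : Matrix ι ι K[X] := (1 : Matrix ι ι K[X]).updateRow i₀ p with hU
    have hUdet : U.det = Polynomial.C (lam i₀) := by rw [hU, dw_det_updateRow_one, hp_i₀]
    have hUunit : IsUnit U.det := by
      rw [hUdet]
      exact Polynomial.isUnit_C.mpr (isUnit_iff_ne_zero.mpr hlam_i₀)
    -- the new matrix
    set b' : Matrix ι ι (LaurentSeries K) := U.map dw_ev * b with hb'
    have hb'row : b' = b.updateRow i₀ (fun j => ∑ l, dw_ev (p l) * b l j) :=
      dw_updateRow_map_mul b i₀ p
    set a' : ι → ℤ := Function.update a i₀ (a i₀ + 1) with ha'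
    -- each term of the new row
    have hterm : ∀ l j, po_VB (dw_ev (p l) * b l j) (a i₀) ∧
        (dw_ev (p l) * b l j).coeff (a i₀) = lam l * Lmat l j := by
      intro l j
      by_cases hl : lam l ≠ 0
      · have hle : a i₀ ≤ a l := hi₀min l (by simp [hI, hl])
        have hk : ((a l - a i₀).toNat : ℤ) = a l - a i₀ := Int.toNat_of_nonneg (by omega)
        have hpl : dw_ev (p l) = HahnSeries.single (-((a l - a i₀).toNat : ℤ)) (lam l) := by
          simp only [hp, if_pos hl]
          exact dw_ev_monomial _ _
        rw [hpl, hk]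
        have hidx : -(a l - a i₀) + a l = a i₀ := by ring
        have h1 := (po_VB_single (-(a l - a i₀)) (lam l)).mul (hvb l j)
        have h2 := po_coeff_mul_corner (po_VB_single (-(a l - a i₀)) (lam l)) (hvb l j)
        rw [hidx] at h1 h2
        refine ⟨h1, ?_⟩
        rw [h2, HahnSeries.coeff_single_same]
        rfl
      · rw [not_not] at hl
        have hpl : p l = 0 := by simp only [hp, hl, ne_eq, not_true_eq_false, if_false]
        rw [hpl, map_zero, zero_mul, hl, zero_mul]
        exact ⟨po_VB_zero _, rfl⟩
    have hvb' : ∀ i j, po_VB (b' i j) (a' i) := by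
      intro i j
      rw [hb'row]
      by_cases hi : i = i₀
      · subst hi
        rw [Matrix.updateRow_self, ha', Function.update_self]
        apply po_VB_succ_of_coeff_eq_zero
        · exact po_VB.sum _ _ fun l _ => (hterm l j).1
        · rw [HahnSeries.coeff_sum, Finset.sum_congr rfl fun l _ => (hterm l j).2]
          have := congrFun hlam j
          simpa [Matrix.vecMul, dotProduct] using this
      · rw [Matrix.updateRow_ne hi, ha', Function.update_of_ne hi]
        exact hvb i j
    have hdet' : b'.det = dw_ev (Polynomial.C (lam i₀)) * b.det := by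
      have hmap : (U.map dw_ev).det = dw_ev U.det := by
        rw [AlgHom.map_det, AlgHom.mapMatrix_apply]
      rw [hb', Matrix.det_mul, hmap, hUdet]
    have hconst : dw_ev (Polynomial.C (lam i₀)) ≠ 0 := by
      rw [dw_ev_C]
      exact HahnSeries.C_ne_zero hlam_i₀
    have hdet'0 : b'.det ≠ 0 := by
      rw [hdet']
      exact mul_ne_zero hconst hdet
    have hord' : b'.det.order = b.det.order := by
      rw [hdet', HahnSeries.order_mul hconst hdet, dw_ev_C, HahnSeries.order_C, zero_add]
    have hsum' : ∑ i, a' i = ∑ i, a i + 1 := by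
      rw [ha', Finset.sum_update_of_mem (Finset.mem_univ i₀)]
      have := Finset.add_sum_erase Finset.univ a (Finset.mem_univ i₀)
      have h2 : ∑ x ∈ Finset.univ \ {i₀}, a x = ∑ x ∈ Finset.univ.erase i₀, a x := by
        rw [Finset.sdiff_singleton_eq_erase]
      rw [h2]
      omega
    have hD' : b'.det.order - ∑ i, a' i = (D : ℤ) := by
      rw [hord', hsum']
      have : b.det.order - ∑ i, a i = ((D + 1 : ℕ) : ℤ) := hD
      push_cast at this
      omega
    obtain ⟨U₁, a'', hU₁, hred⟩ := ih b' a' hdet'0 hvb' hD'
    refine ⟨U₁ * U, a'', ?_, ?_⟩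
    · rw [Matrix.det_mul]
      exact hU₁.mul hUunit
    · have : (U₁ * U).map dw_ev * b = U₁.map dw_ev * b' := by
        rw [hb', ← Matrix.mul_assoc]
        congr 1
        ext i j
        simp [Matrix.mul_apply, map_sum, map_mul]
      rw [this]
      exact hred

/-- **Existence of reduced bases.** Every square matrix over `K((t))` with non-zero determinant
becomes reduced after left multiplication by a matrix in `GL_n(K[x])`, `x = t⁻¹`. -/
theorem dw_exists_reduced (v : Matrix ι ι (LaurentSeries K)) (hv : v.det ≠ 0) :
    ∃ (U : Matrix ι ι K[X]) (a : ι → ℤ), IsUnit U.det ∧ dw_IsReduced (U.map dw_ev * v) a := by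
  classical
  -- a common lower bound for all entries
  obtain ⟨m, hm⟩ : ∃ m : ℤ, ∀ i j, po_VB (v i j) m := by
    obtain ⟨M, hM⟩ := Finset.exists_le
      (Finset.univ.image (fun ij : ι × ι => -(v ij.1 ij.2).order))
    refine ⟨-M, fun i j => ?_⟩
    apply po_VB_of_le_order
    have := hM _ (Finset.mem_image_of_mem (fun ij : ι × ι => -(v ij.1 ij.2).order)
      (Finset.mem_univ (i, j)))
    simp only at this
    omega
  have hH := dw_det_VB v (fun _ => m) hm
  have hle : ∑ _i : ι, m ≤ v.det.order := po_le_order_of_VB hH.1 hv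
  obtain ⟨D, hD⟩ := Int.eq_ofNat_of_zero_le (sub_nonneg.mpr hle)
  exact dw_exists_reduced_aux D v (fun _ => m) hv hm hD

end Fermat.Agent.S20
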